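import Fermat.Agent.Lowering.P1.UnitBound.Arith.NormUnit

/-!
# The local symbols at the places fixed by the upper unipotent matrices
-/

set_option autoImplicit false
set_option linter.style.haveILetI false
set_option linter.unusedSectionVars false
set_option maxHeartbeats 1000000

noncomputable section

open scoped Pointwise NumberField
open NumberField

namespace FLTAgent.Lowering.P1.UnitBound

open FLTAgent.Lowering.P1.Brauer FLTAgent.Lowering.P1.Primes

local notation "LL" => AlgebraicClosure ℚ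
local notation "GG" => (AlgebraicClosure ℚ ≃ₐ[ℚ] AlgebraicClosure ℚ)

variable {p : ℕ} [Fact p.Prime] (D : Datum p)

theorem upperU_zero : upperU p 0 = 1 := by
  ext i j; fin_cases i <;> fin_cases j <;> simp [upperU]

theorem upperU_pow (x : ZMod p) (n : ℕ) : upperU p x ^ n = upperU p (n * x) := by
  induction n with
  | zero => rw [pow_zero, Nat.cast_zero, zero_mul, upperU_zero]
  | succ n ih => rw [pow_succ, ih, ← upperU_add, Nat.cast_succ, add_mul, one_mul]

theorem upperU_entry (x : ZMod p) :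
    (upperU p x : Matrix (Fin 2) (Fin 2) (ZMod p)) 0 1 = x := by simp [upperU]

/-- The upper unipotent matrices. -/
def upGroup (p : ℕ) [Fact p.Prime] : Subgroup (GL (Fin 2) (ZMod p)) where
  carrier := {g | ∃ x, g = upperU p x}
  one_mem' := ⟨0, (upperU_zero).symm⟩
  mul_mem' := by
    rintro _ _ ⟨x, rfl⟩ ⟨y, rfl⟩
    exact ⟨x + y, (upperU_add p x y).symm⟩
  inv_mem' := by
    rintro _ ⟨x, rfl⟩
    exact ⟨-x, inv_eq_of_mul_eq_one_right (by rw [← upperU_add, add_neg_cancel, upperU_zero])⟩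

theorem upperU_one_pow_card : upperU p 1 ^ p = 1 := by
  rw [upperU_pow, ZMod.natCast_self, zero_mul, upperU_zero]

theorem exists_upperU_eq_pow (x : ZMod p) : upperU p x = upperU p 1 ^ x.val := by
  rw [upperU_pow, ZMod.natCast_zmod_val, mul_one]

theorem upperU_one_mem {H : Subgroup (GL (Fin 2) (ZMod p))} {x : ZMod p} (hx : x ≠ 0)
    (h : upperU p x ∈ H) : upperU p 1 ∈ H := by
  have h1 := pow_mem h (x⁻¹).val
  rwa [upperU_pow, ZMod.natCast_zmod_val, inv_mul_cancel₀ hx] at h1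

theorem card_upGroup : Nat.card ↥(upGroup p) = p := by
  rw [← Nat.card_congr (Equiv.ofBijective (fun x : ZMod p => (⟨upperU p x, x, rfl⟩ : upGroup p))
    ⟨fun x y h => upperU_injective p (congrArg Subtype.val h),
      fun ⟨g, x, hx⟩ => ⟨x, Subtype.ext hx.symm⟩⟩), Nat.card_zmod]

theorem not_sq_dvd_card : ¬ p * p ∣ Nat.card (GL (Fin 2) (ZMod p)) := by
  intro h
  have hp := (Fact.out : p.Prime)
  rw [Matrix.card_GL_field, Fin.prod_univ_two, ← Nat.card_eq_fintype_card, Nat.card_zmod] at h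
  have e1 : p ^ 2 - p ^ ((1 : Fin 2) : ℕ) = p * (p - 1) := by
    rw [Fin.val_one, pow_one, sq, Nat.mul_sub, mul_one]
  rw [e1, Fin.val_zero, pow_zero, mul_left_comm] at h
  have h2 := Nat.dvd_of_mul_dvd_mul_left hp.pos h
  rcases hp.dvd_mul.1 h2 with h3 | h3
  · have h4 := Nat.dvd_sub (dvd_pow_self p two_ne_zero) h3
    rw [Nat.sub_sub_self (Nat.one_le_pow _ _ hp.pos)] at h4
    exact hp.ne_one (Nat.dvd_one.1 h4)
  · have h4 := Nat.le_of_dvd (Nat.sub_pos_of_lt hp.one_lt) h3
    exact absurd h4 (Nat.not_le.2 (Nat.sub_lt hp.pos one_pos))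

theorem exists_symbolData (hC : TargetCyclic) {S : Finset ℕ} (hS : ∀ l ∈ S, l.Prime)
    (hbad : D.bad ⊆ S)
    (hcl : ∀ P ∈ Out (kField D) S, ∃ z : LL, z ∈ kField D ∧ z ≠ 0 ∧ ordP (kField D) P z = 1 ∧
      ∀ Q ∈ Out (kField D) S, Q ≠ P → ordP (kField D) Q z = 0)
    (V : ℕ → ValuationSubring LL) (hV : ∀ l ∈ S, (V l).LiesOverPrime l) :
    Nonempty (SymbolData D S V) := by
  classical
  have hp := (Fact.out : p.Prime)
  -- the cyclic extension
  obtain ⟨E, hE, hElev⟩ := D.level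
  have hopen : OpenIn ((upGroup p).comap D.rb) ⊤ := ⟨E, hE, fun σ hσ => by
    show D.rb σ ∈ upGroup p
    rw [hElev σ ((IntermediateField.mem_fixingSubgroup_iff E σ).1 (Subgroup.mem_inf.1 hσ).2)]
    exact one_mem _⟩
  obtain ⟨L, hL, hgL⟩ := exists_field_of_open hopen
  haveI := hL
  have hmemL : ∀ σ : GG, σ ∈ galOf L ↔ ∃ x, D.rb σ = upperU p x := fun σ => by
    rw [hgL]; rfl
  let ψ : GG → ZMod p := fun σ => (D.rb σ : Matrix (Fin 2) (Fin 2) (ZMod p)) 0 1
  have hψ : ∀ σ x, D.rb σ = upperU p x → ψ σ = x := fun σ x h => by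
    simp only [ψ, h, upperU_entry]
  have hgK : galOf (kField D) = D.rb.ker := galOf_kField D
  have hLK : L ≤ kField D := galOf_le_iff.1 fun σ hσ => by
    rw [hgK, MonoidHom.mem_ker] at hσ
    exact (hmemL σ).2 ⟨0, hσ.trans upperU_zero.symm⟩
  obtain ⟨ζ, hζ⟩ := exists_zeta (p := p)
  have hζL : ζ ∈ L := mem_of_galOf_fixed fun σ hσ => by
    obtain ⟨x, hx⟩ := (hmemL σ).1 hσ
    rw [D.det_cyclo σ ζ hζ.pow_eq_one, hx, det_upperU, ZMod.val_one, pow_one]
  obtain ⟨R⟩ := hC p D.p_gt L ζ hζ hζL ψ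
    ⟨E, hE, fun g s hs => by
      simp only [ψ, map_mul, hElev s ((IntermediateField.mem_fixingSubgroup_iff E _).1 hs),
        mul_one]⟩
    (fun σ hσ τ hτ => by
      obtain ⟨x, hx⟩ := (hmemL σ).1 hσ
      obtain ⟨y, hy⟩ := (hmemL τ).1 hτ
      rw [hψ _ _ hx, hψ _ _ hy, hψ (σ * τ) (x + y) (by rw [map_mul, hx, hy, upperU_add])])
    ⟨lift D (upperU p 1), (hmemL _).2 ⟨1, rb_lift D _⟩, by
      rw [hψ _ _ (rb_lift D _)]; exact one_ne_zero⟩
    (kField D) hLK fun σ => by
      rw [hgK, MonoidHom.mem_ker]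
      refine ⟨fun h => ⟨(hmemL σ).2 ⟨0, h.trans upperU_zero.symm⟩,
        hψ σ 0 (h.trans upperU_zero.symm)⟩, fun ⟨h, h0⟩ => ?_⟩
      obtain ⟨x, hx⟩ := (hmemL σ).1 h
      rw [hψ σ x hx] at h0
      rw [hx, h0, upperU_zero]
  have hkerL : ∀ k : GG, D.rb k = 1 → k ∈ galOf L := fun k hk =>
    (hmemL k).2 ⟨0, hk.trans upperU_zero.symm⟩
  have hmemb : ∀ b : UnitMod D S, actU D S (upperU p 1) b = b → val D b ∈ L := fun b hb => by
    refine mem_of_galOf_fixed fun σ hσ => ?_
    obtain ⟨x, hx⟩ := (hmemL σ).1 hσ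
    rw [← val_actU, hx, exists_upperU_eq_pow, map_pow]
    congr 1
    induction x.val with
    | zero => rfl
    | succ n ih =>
      rw [pow_succ']
      show actU D S (upperU p 1) ((actU D S (upperU p 1) ^ n) b) = b
      rw [ih, hb]
  -- orbit invariance
  have horb : ∀ (k : GG), k ∈ galOf L → ∀ (l : ℕ) (W : ValuationSubring LL), l.Prime →
      W.LiesOverPrime l → ∀ b : LL, b ∈ L → b ≠ 0 → R.θ (k • W) b = R.θ W b := by
    intro k hk l W hl hW b hb hb0
    have h := R.θ_conj k 1 (fun σ => ⟨fun h => by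
        simpa [mul_assoc] using mul_mem (mul_mem (inv_mem hk) h) hk,
      fun h => mul_mem (mul_mem hk h) (inv_mem hk)⟩) (fun σ hσ => by
        obtain ⟨x, hx⟩ := (hmemL σ).1 hσ
        obtain ⟨y, hy⟩ := (hmemL k).1 hk
        rw [hψ σ x hx, hψ (k * σ * k⁻¹) x ?_, one_mul]
        rw [map_mul, map_mul, map_inv, hx, hy, mul_inv_eq_iff_eq_mul, ← upperU_add, ← upperU_add,
          add_comm]) l W hl hW b hb hb0
    rwa [mem_fixed hb k hk, one_mul] at h
  let place : FinPl D S V → ValuationSubring LL := fun π => lift D π.2.out • V π.1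
  have hover : ∀ π : FinPl D S V, (place π).LiesOverPrime (π.1 : ℕ) := fun π =>
    Places.liesOverPrime_smul _ _ (hV π.1 π.1.2)
  have hplace : ∀ (l : ↥S) (γ : GG), ∃ k : GG, D.rb k = 1 ∧
      k • γ • V (l : ℕ) = place ⟨l, QuotientGroup.mk (D.rb γ)⟩ := fun l γ =>
    exists_ker_smul D (primeUnder_smul_quot D (by rw [rb_lift, QuotientGroup.out_eq']))
  have hsame : ∀ (σ : GG) (π π' : FinPl D S V), σ • place π = place π' →
      (⟨π.1, D.rb σ • π.2⟩ : FinPl D S V) = π' := by
    rintro σ ⟨l, q⟩ ⟨l', q'⟩ h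
    have hl : (l : ℕ) = l' := prime_unique (hS l l.2) (hS l' l'.2)
      (Places.liesOverPrime_smul _ σ (hover ⟨l, q⟩)) (h ▸ hover ⟨l', q'⟩)
    obtain rfl : l = l' := Subtype.ext hl
    have h1 : (QuotientGroup.mk (D.rb (σ * lift D q.out)) :
        GL (Fin 2) (ZMod p) ⧸ decImage D (V l)) = QuotientGroup.mk (D.rb (lift D q'.out)) :=
      quot_eq_of_primeUnder D (by
        rw [mul_smul]
        exact congrArg (primeUnder (kField D)) h)
    rw [map_mul, rb_lift, rb_lift, QuotientGroup.out_eq'] at h1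
    refine congrArg (Sigma.mk l) (Eq.trans ?_ h1)
    conv_lhs => rw [← q.out_eq']
    rfl
  have hfixU : ∀ π : FinPl D S V, upperU p 1 • π = π → ∀ x : ZMod p,
      upperU p x • π.2 = π.2 := by
    rintro ⟨l, q⟩ hπ x
    have h1 : upperU p 1 ∈ MulAction.stabilizer (GL (Fin 2) (ZMod p)) q := by
      show upperU p 1 • q = q
      exact eq_of_heq (Sigma.mk.inj hπ).2
    rw [exists_upperU_eq_pow x]
    exact MulAction.mem_stabilizer_iff.1 (pow_mem h1 _)
  have hnorm : ∀ b : LL, b ∈ L → b ≠ 0 → ∀ (l : ℕ) (W : ValuationSubring LL), l.Prime →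
      W.LiesOverPrime l → (l ∉ S → W.valuation b = 1) →
      (∀ hl : l ∈ S, ∀ γ : GG, γ • V l = W →
        upperU p 1 • (⟨⟨l, hl⟩, QuotientGroup.mk (D.rb γ)⟩ : FinPl D S V) ≠
          ⟨⟨l, hl⟩, QuotientGroup.mk (D.rb γ)⟩) →
      IsNormOn p L (kField D) (W.decompositionSubgroup ℚ) b := by
    intro b hb hb0 l W hl hW hunit hfix
    by_cases hlS : l ∈ S
    · obtain ⟨γ, hγ⟩ := Places.exists_smul_eq hl (hV l hlS) hW
      refine ⟨b, hb0, fun σ hσ => ?_, fun σ hσ hσK => (hσK ?_).elim⟩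
      · have h1 := (Subgroup.mem_inf.1 hσ).1
        rw [hgK] at h1
        exact mem_fixed hb σ (hkerL σ h1)
      · obtain ⟨h1, h2⟩ := Subgroup.mem_inf.1 hσ
        obtain ⟨x, hx⟩ := (hmemL σ).1 h1
        rw [hgK, MonoidHom.mem_ker, hx]
        by_contra hne
        have hx0 : x ≠ 0 := fun e => hne (by rw [e, upperU_zero])
        refine hfix hlS γ hγ ?_
        have h3 : upperU p x ∈ MulAction.stabilizer (GL (Fin 2) (ZMod p))
            (QuotientGroup.mk (D.rb γ) : GL (Fin 2) (ZMod p) ⧸ decImage D (V l)) := by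
          show QuotientGroup.mk (upperU p x * D.rb γ) = _
          rw [← hx]
          refine ((QuotientGroup.eq (s := decImage D (V l))).2 ⟨γ⁻¹ * σ * γ, ?_, ?_⟩).symm
          · show (γ⁻¹ * σ * γ) • V l = V l
            rw [mul_smul, mul_smul, hγ, show σ • W = W from h2, ← hγ, inv_smul_smul]
          · rw [map_mul, map_mul, map_inv]; group
        exact congrArg (Sigma.mk _) (MulAction.mem_stabilizer_iff.1 (upperU_one_mem hx0 h3))
    · refine R.units_norm l W hl hW (fun σ hσ hσI => ?_) b hb hb0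
        ((W.valuation_le_one_iff _).1 (hunit hlS).le)
        ((W.valuation_le_one_iff _).1 (by rw [map_inv₀, hunit hlS, inv_one]))
      rw [hgK]
      exact D.unramified l hl (fun h => hlS (hbad h)) W hW σ hσI
  refine ⟨{
    θ := fun b π => R.θ (place π) (val D b)
    θ_add := fun a b ha hb π _ => ?_
    θ_diag := fun s t b hb π hπ => ?_
    θ_sum := fun b hb T hT => ?_
    θ_norm := fun b hb h0 => ?_ }⟩
  · rw [val_add]
    exact R.θ_mul _ _ (hS _ π.1.2) (hover π) _ _ (hmemb a ha) (hmemb b hb) (val_ne D a) (val_ne D b)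
  · obtain ⟨g, hg⟩ : ∃ g, g = diagHom p (s, t) := ⟨_, rfl⟩
    rw [← hg]
    set γ := lift D g
    have hconj : ∀ σ x, D.rb σ = upperU p x → D.rb (γ * σ * γ⁻¹) =
        upperU p ((s : ZMod p) * x * ((t⁻¹ : (ZMod p)ˣ) : ZMod p)) := fun σ x h => by
      rw [map_mul, map_mul, map_inv, rb_lift, h, hg, diag_conj, mul_inv_cancel_right]
    have hnorm' : ∀ σ, γ * σ * γ⁻¹ ∈ galOf L ↔ σ ∈ galOf L := by
      refine fun σ => ⟨fun h => ?_, fun h => ?_⟩
      · obtain ⟨y, hy⟩ := (hmemL _).1 h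
        refine (hmemL σ).2 ⟨(s⁻¹ : (ZMod p)ˣ) * y * (t : ZMod p), ?_⟩
        have h2 : g * D.rb σ * g⁻¹ = upperU p y := by
          rw [← hy, map_mul, map_mul, map_inv, rb_lift]
        have h3 : g * upperU p ((s⁻¹ : (ZMod p)ˣ) * y * (t : ZMod p)) * g⁻¹ = upperU p y := by
          rw [hg, diag_conj, mul_inv_cancel_right]
          congr 1
          rw [show (s : ZMod p) * ((s⁻¹ : (ZMod p)ˣ) * y * (t : ZMod p)) * ((t⁻¹ : (ZMod p)ˣ) : ZMod p)
            = ((s : ZMod p) * (s⁻¹ : (ZMod p)ˣ)) * y * ((t : ZMod p) * ((t⁻¹ : (ZMod p)ˣ) : ZMod p))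
            by ring, Units.mul_inv, Units.mul_inv, one_mul, mul_one]
        exact mul_left_cancel (mul_right_cancel (h2.trans h3.symm))
      · obtain ⟨x, hx⟩ := (hmemL _).1 h
        exact (hmemL _).2 ⟨_, hconj σ x hx⟩
    have hlam := R.θ_conj γ ((s : ZMod p) * ((t⁻¹ : (ZMod p)ˣ) : ZMod p)) hnorm' (fun σ hσ => by
        obtain ⟨x, hx⟩ := (hmemL _).1 hσ
        rw [hψ σ x hx, hψ _ _ (hconj σ x hx)]
        ring) _ _ (hS _ π.1.2) (hover π) _ (hmemb b hb) (val_ne D b)
    show R.θ (place (g • π)) (val D (actU D S g b)) = _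
    rw [← hlam]
    have hval : val D (actU D S g b) = γ (val D b) := by
      conv_lhs => rw [← rb_lift D g, val_actU]
    rw [hval]
    obtain ⟨k, hk, hk'⟩ := hplace π.1 (γ * lift D π.2.out)
    have hq : (⟨π.1, QuotientGroup.mk (D.rb (γ * lift D π.2.out))⟩ : FinPl D S V) = g • π := by
      rw [map_mul, rb_lift, rb_lift]
      refine congrArg (Sigma.mk π.1) ?_
      conv_rhs => rw [← π.2.out_eq']
      rfl
    rw [hq, mul_smul] at hk'
    rw [← hk']
    have hγb : γ (val D b) ∈ L := mem_of_galOf_fixed fun σ hσ => by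
      have h1 : γ⁻¹ * σ * γ ∈ galOf L := (hnorm' _).1 (by
        rwa [show γ * (γ⁻¹ * σ * γ) * γ⁻¹ = σ by group])
      have h2 := congrArg γ (mem_fixed (hmemb b hb) _ h1)
      rwa [← AlgEquiv.mul_apply, show γ * (γ⁻¹ * σ * γ) = σ * γ by group,
        AlgEquiv.mul_apply] at h2
    exact horb k (hkerL k hk) _ _ (hS _ π.1.2) (Places.liesOverPrime_smul _ γ (hover π)) _ hγb
      ((map_ne_zero _).2 (val_ne D b))
  · have hinj : Set.InjOn place (T : Set (FinPl D S V)) := fun π _ π' _ h => by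
      have h1 := hsame 1 π π' (by rw [one_smul]; exact h)
      rwa [map_one, one_smul] at h1
    have h := R.θ_sum (val D b) (hmemb b hb) (val_ne D b) (T.image place)
      (fun W hW => by
        obtain ⟨π, -, rfl⟩ := Finset.mem_image.1 hW
        exact ⟨_, hS _ π.1.2, hover π⟩)
      (fun W hW W' hW' σ hσ h => by
        obtain ⟨π, hπ, rfl⟩ := Finset.mem_image.1 hW
        obtain ⟨π', -, rfl⟩ := Finset.mem_image.1 hW'
        obtain ⟨x, hx⟩ := (hmemL σ).1 hσ
        have h1 := hsame σ π π' h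
        rw [hx, hfixU π ((hT π).1 hπ) x] at h1
        exact congrArg place h1)
      (fun l W hl hW hnot => by
        by_contra hc
        push Not at hc
        refine hnot (hnorm _ (hmemb b hb) (val_ne D b) l W hl hW
          (fun hlS => (Additive.toMul b).2.2 l hl hlS W hW) fun hlS γ hγ e => ?_)
        obtain ⟨k, hk, hk'⟩ := hplace ⟨l, hlS⟩ γ
        refine hc k (hkerL k hk) (Finset.mem_image.2 ⟨_, (hT _).2 e, ?_⟩)
        rw [← hk', hγ])
    rw [Finset.sum_image hinj] at h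
    exact h
  · have hall : ∀ (l : ℕ) (W : ValuationSubring LL), l.Prime → W.LiesOverPrime l →
        IsNormOn p L (kField D) (W.decompositionSubgroup ℚ) (val D b) := by
      intro l W hl hW
      by_cases hex : ∃ hlS : l ∈ S, ∃ γ : GG, γ • V l = W ∧
          upperU p 1 • (⟨⟨l, hlS⟩, QuotientGroup.mk (D.rb γ)⟩ : FinPl D S V) =
            ⟨⟨l, hlS⟩, QuotientGroup.mk (D.rb γ)⟩
      · obtain ⟨hlS, γ, hγ, e⟩ := hex
        refine R.θ_detect l W hl hW (fun hdvd => ?_) _ (hmemb b hb) (val_ne D b) ?_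
        · rw [hgL, Subgroup.relIndex_comap] at hdvd
          have hu : upperU p 1 ∈ (W.decompositionSubgroup ℚ).map D.rb := by
            obtain ⟨δ, hδ, hδe⟩ := QuotientGroup.eq.1 (eq_of_heq (Sigma.mk.inj e).2)
            refine ⟨γ * δ⁻¹ * γ⁻¹, ?_, ?_⟩
            · show (γ * δ⁻¹ * γ⁻¹) • W = W
              have hδ' : δ⁻¹ • V l = V l := inv_smul_eq_iff.2 (show δ • V l = V l from hδ).symm
              rw [mul_smul, mul_smul, ← hγ, inv_smul_smul, hδ']
            · rw [map_mul, map_mul, map_inv, map_inv, hδe]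
              simp [mul_assoc]
          have hle : upGroup p ≤ (W.decompositionSubgroup ℚ).map D.rb := by
            rintro _ ⟨x, rfl⟩
            rw [exists_upperU_eq_pow x]
            exact pow_mem hu _
          have h1 := Subgroup.relIndex_mul_relIndex ⊥ (upGroup p) _ bot_le hle
          rw [Subgroup.relIndex_bot_left, Subgroup.relIndex_bot_left, card_upGroup] at h1
          refine not_sq_dvd_card (p := p) ((mul_dvd_mul_left p hdvd).trans ?_)
          rw [h1]
          exact Subgroup.card_subgroup_dvd_card _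
        · obtain ⟨k, hk, hk'⟩ := hplace ⟨l, hlS⟩ γ
          rw [hγ] at hk'
          rw [← horb k (hkerL k hk) l W hl hW _ (hmemb b hb) (val_ne D b), hk']
          exact h0 _ e
      · push Not at hex
        exact hnorm _ (hmemb b hb) (val_ne D b) l W hl hW
          (fun hlS => (Additive.toMul b).2.2 l hl hlS W hW) fun hlS γ hγ => hex hlS γ hγ
    obtain ⟨y, hy0, hyfix, hyN⟩ := R.norm_theorem _ (hmemb b hb) (val_ne D b) hall
    have hyK : y ∈ kField D := mem_of_galOf_fixed fun σ hσ =>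
      hyfix σ (Subgroup.mem_inf.2 ⟨hσ, Subgroup.mem_top σ⟩)
    have hγp : D.rb (lift D (upperU p 1)) ^ p = 1 := by rw [rb_lift, upperU_one_pow_card]
    have hN : powProd p (lift D (upperU p 1)) y = val D b := hyN _
      (Subgroup.mem_inf.2 ⟨(hmemL _).2 ⟨1, rb_lift D _⟩, Subgroup.mem_top _⟩) fun h => by
        rw [hgK, MonoidHom.mem_ker, rb_lift, ← upperU_zero] at h
        exact one_ne_zero (upperU_injective p h)
    obtain ⟨a, ha⟩ := exists_norm_unit D hcl hγp b hyK hy0 hN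
    refine ⟨a, val_injective D ?_⟩
    rw [← ha, normU, AddMonoidHom.finsetSum_apply, val_sum, powProd]
    refine Finset.prod_congr rfl fun i _ => ?_
    rw [← val_actU, map_pow D.rb, rb_lift]
    rfl

end FLTAgent.Lowering.P1.UnitBound
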