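import Fermat.Agent.Lowering.P1.UnitBound.Arith.Dirichlet
import Fermat.Agent.Lowering.P1.UnitBound.Arith.Symbol

/-!
# The arithmetic input of the unit bound
-/

set_option autoImplicit false
set_option linter.style.haveILetI false
set_option linter.unusedSectionVars false

noncomputable section

open scoped Pointwise NumberField
open NumberField

namespace FLTAgent.Lowering.P1.UnitBound

open FLTAgent.Lowering.P1.Brauer FLTAgent.Lowering.P1.Primes

local notation "LL" => AlgebraicClosure ℚ
local notation "GG" => (AlgebraicClosure ℚ ≃ₐ[ℚ] AlgebraicClosure ℚ)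

theorem rb_eq_of_mem {p : ℕ} [Fact p.Prime] (D : Datum p) {σ τ : GG}
    (h : σ⁻¹ * τ ∈ (kField D).fixingSubgroup) : D.rb σ = D.rb τ := by
  have h1 : σ⁻¹ * τ ∈ galOf (kField D) := h
  rw [galOf_kField, MonoidHom.mem_ker, map_mul, map_inv, inv_mul_eq_one] at h1
  exact h1

/-- There is a prime all of whose decomposition groups contain a unipotent element. -/
theorem exists_unipotent_prime {p : ℕ} [Fact p.Prime] (D : Datum p) :
    ∃ q : ℕ, q.Prime ∧ ∀ W : ValuationSubring LL, W.LiesOverPrime q →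
      ∃ g : GL (Fin 2) (ZMod p), g * upperU p 1 * g⁻¹ ∈ decImage D W := by
  obtain ⟨q, V, τ, i, j, hq, -, hV, hτ, -, hi⟩ :=
    Primes.exists_frobenius_zpowers (kField D) (lift D (upperU p 1)) ∅
  refine ⟨q, hq, fun W hW => ?_⟩
  obtain ⟨γ, rfl⟩ := Places.exists_smul_eq hq hV hW
  refine ⟨D.rb γ, γ * τ ^ i * γ⁻¹, ?_, ?_⟩
  · show (γ * τ ^ i * γ⁻¹) • γ • V = γ • V
    rw [mul_smul, mul_smul, inv_smul_smul]
    congr 1
    exact MulAction.mem_stabilizer_iff.1 (pow_mem hτ.mem_decompositionSubgroup i)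
  · rw [map_mul, map_mul, map_inv, rb_eq_of_mem D hi, rb_lift]

/-- The arithmetic input, from cyclic reciprocity. -/
theorem targetArith (hC : TargetCyclic) : TargetArith := by
  intro p _ D
  classical
  obtain ⟨S₁, hS₁, hcl⟩ := exists_class_primes (kField D)
  obtain ⟨q, hq, hqW⟩ := exists_unipotent_prime D
  refine ⟨cbar D, cbar_mul_self D, det_cbar D, D.bad ∪ S₁ ∪ {q}, fun l hl =>
    Finset.mem_union_left _ (Finset.mem_union_left _ hl), fun l hl => ?_,
    ⟨q, Finset.mem_union_right _ (Finset.mem_singleton_self q), hqW⟩, fun S hS₀ hS => ?_⟩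
  · rcases Finset.mem_union.1 hl with h | h
    · rcases Finset.mem_union.1 h with h | h
      · exact D.bad_prime l h
      · exact hS₁ l h
    · rwa [Finset.mem_singleton.1 h]
  · have hbad : D.bad ⊆ S := fun l hl =>
      hS₀ (Finset.mem_union_left _ (Finset.mem_union_left _ hl))
    have hS₁S : S₁ ⊆ S := fun l hl =>
      hS₀ (Finset.mem_union_left _ (Finset.mem_union_right _ hl))
    exact ⟨fg_unitMod D S, fun α hα0 hα hord => exists_split D (hcl S hS₁S) hα0 hα hord,
      fun V hV => ⟨exists_dirichletData D V hS hV,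
        exists_symbolData D hC hS hbad (hcl S hS₁S) V hV⟩⟩

end FLTAgent.Lowering.P1.UnitBound
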