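import Fermat.Agent.Lowering.P1.UnitBound.Arith.Prime
import Fermat.Agent.Lowering.P1.UnitBound.Setup

/-!
# Class group representatives, finite generation of the units outside `S`, and almost powers
-/

set_option autoImplicit false
set_option linter.style.haveILetI false
set_option linter.unusedSectionVars false
set_option maxHeartbeats 1000000

noncomputable section

open scoped Pointwise NumberField nonZeroDivisors
open NumberField UniqueFactorizationMonoid

namespace FLTAgent.Lowering.P1.UnitBound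

open FLTAgent.Lowering.P1.Brauer

local notation "LL" => AlgebraicClosure ℚ
local notation "GG" => (AlgebraicClosure ℚ ≃ₐ[ℚ] AlgebraicClosure ℚ)

variable (K : IntermediateField ℚ (AlgebraicClosure ℚ)) [FiniteDimensional ℚ K]

local instance (priority := 900) numberFieldK' : NumberField K := ⟨⟩

/-- Outside a finite set of primes every prime is principal up to primes over the set. -/
theorem exists_class_primes : ∃ S₁ : Finset ℕ, (∀ l ∈ S₁, l.Prime) ∧ ∀ S : Finset ℕ, S₁ ⊆ S →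
    ∀ P ∈ Out K S, ∃ z : LL, z ∈ K ∧ z ≠ 0 ∧ ordP K P z = 1 ∧
      ∀ Q ∈ Out K S, Q ≠ P → ordP K Q z = 0 := by
  classical
  have hsur : ∀ C : ClassGroup (𝓞 K), ∃ I : (Ideal (𝓞 K))⁰, ClassGroup.mk0 I = C :=
    fun C => ClassGroup.mk0_surjective C
  choose I hI using hsur
  refine ⟨Finset.univ.biUnion fun C => (Ideal.absNorm (I C : Ideal (𝓞 K))).primeFactors,
    fun l hl => ?_, fun S hS P hP => ?_⟩
  · obtain ⟨C, -, h⟩ := Finset.mem_biUnion.1 hl
    exact Nat.prime_of_mem_primeFactors h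
  obtain ⟨hPp, hP0, hPS⟩ := hP
  have hP' : P ∈ (Ideal (𝓞 K))⁰ := mem_nonZeroDivisors_of_ne_zero hP0
  obtain ⟨C, hC⟩ : ∃ C : ClassGroup (𝓞 K), C = (ClassGroup.mk0 ⟨P, hP'⟩)⁻¹ := ⟨_, rfl⟩
  obtain ⟨J, hJ, hJC⟩ : ∃ J : (Ideal (𝓞 K))⁰, J = I C ∧ ClassGroup.mk0 J = C := ⟨_, rfl, hI C⟩
  have hPJ : P * (J : Ideal (𝓞 K)) ∈ (Ideal (𝓞 K))⁰ := mul_mem hP' J.2
  have hmk : ClassGroup.mk0 ⟨P * (J : Ideal (𝓞 K)), hPJ⟩ = 1 := by
    rw [show (⟨P * (J : Ideal (𝓞 K)), hPJ⟩ : (Ideal (𝓞 K))⁰) = ⟨P, hP'⟩ * J from rfl, map_mul, hJC,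
      hC, mul_inv_cancel]
  have hprinc := (ClassGroup.mk0_eq_one_iff hPJ).1 hmk
  obtain ⟨z, hz⟩ := hprinc.principal
  have hz' : P * (J : Ideal (𝓞 K)) = Ideal.span {z} := hz
  have hJ0 : (J : Ideal (𝓞 K)) ≠ 0 := nonZeroDivisors.ne_zero J.2
  have hz0 : z ≠ 0 := fun h => mul_ne_zero hP0 hJ0 (by rw [hz', h]; simp)
  have hirr : Irreducible P := (Ideal.prime_of_isPrime hP0 hPp).irreducible
  have hJQ : ∀ Q ∈ Out K S, (normalizedFactors (J : Ideal (𝓞 K))).count Q = 0 := fun Q hQ => by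
    rw [Multiset.count_eq_zero]
    intro h
    have hdvd := dvd_of_mem_normalizedFactors h
    have hmem : ((Ideal.absNorm (J : Ideal (𝓞 K)) : ℕ) : 𝓞 K) ∈ Q :=
      Ideal.dvd_iff_le.1 hdvd (Ideal.absNorm_mem _)
    have hn : Ideal.absNorm (J : Ideal (𝓞 K)) ≠ 0 := fun h0 => hJ0 (Ideal.absNorm_eq_zero_iff.1 h0)
    rw [← Nat.prod_factorization_pow_eq_self hn, Finsupp.prod, Nat.cast_prod] at hmem
    obtain ⟨q, hq, hqQ⟩ := (Ideal.IsPrime.prod_mem_iff (hp := hQ.1)).1 hmem
    rw [Nat.cast_pow] at hqQ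
    exact hQ.2.2 q (hS (Finset.mem_biUnion.2 ⟨C, Finset.mem_univ _, hJ ▸ hq⟩))
      (Nat.prime_of_mem_primeFactors hq) (hQ.1.mem_of_pow_mem _ hqQ)
  have hexp : ∀ Q ∈ Out K S, MW.expAt Q z = if Q = P then 1 else 0 := fun Q hQ => by
    rw [MW.expAt, ← hz', normalizedFactors_mul hP0 hJ0, Multiset.count_add, hJQ Q hQ, add_zero,
      normalizedFactors_irreducible hirr, normalize_eq, Multiset.count_singleton]
  refine ⟨((z : K) : LL), (z : K).2, coe_int_ne K hz0, ?_, fun Q hQ hne => ?_⟩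
  · haveI := hPp
    rw [ordP_int K P hP0 hz0, hexp P ⟨hPp, hP0, hPS⟩, if_pos rfl]
    rfl
  · haveI := hQ.1
    rw [ordP_int K Q hQ.2.1 hz0, hexp Q hQ, if_neg hne]
    rfl

variable {p : ℕ} [Fact p.Prime] (D : Datum p)

theorem openIn_ker : OpenIn D.rb.ker ⊤ := by
  obtain ⟨L, hL, h⟩ := D.level
  exact ⟨L, hL, fun σ hσ => MonoidHom.mem_ker.2 (h σ
    ((IntermediateField.mem_fixingSubgroup_iff L σ).1 (Subgroup.mem_inf.1 hσ).2))⟩

/-- The field cut out by the representation. -/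
def kField : IntermediateField ℚ LL := (exists_field_of_open (openIn_ker D)).choose

instance kField_finite : FiniteDimensional ℚ (kField D) :=
  (exists_field_of_open (openIn_ker D)).choose_spec.1

theorem galOf_kField : galOf (kField D) = D.rb.ker :=
  (exists_field_of_open (openIn_ker D)).choose_spec.2

theorem mem_kField {x : LL} : x ∈ kField D ↔ IsFixed D x := by
  refine ⟨fun h σ hσ => mem_fixed h σ ?_, fun h => mem_of_galOf_fixed fun σ hσ => h σ ?_⟩
  · rw [galOf_kField]; exact hσ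
  · rw [galOf_kField] at hσ; exact hσ

theorem map_mem_kField (σ : GG) {x : LL} (hx : x ∈ kField D) : σ x ∈ kField D :=
  (mem_kField D).2 (((mem_kField D).1 hx).map σ)

theorem val_ne {S : Finset ℕ} (a : UnitMod D S) : val D a ≠ 0 :=
  ((Additive.toMul a : ↥(sUnits D S)) : LLˣ).ne_zero

theorem val_mem {S : Finset ℕ} (a : UnitMod D S) : val D a ∈ kField D :=
  (mem_kField D).2 (Additive.toMul a).2.1

theorem val_add {S : Finset ℕ} (a b : UnitMod D S) : val D (a + b) = val D a * val D b := rfl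

theorem val_zero (S : Finset ℕ) : val D (0 : UnitMod D S) = 1 := rfl

theorem val_nsmul {S : Finset ℕ} (n : ℕ) (a : UnitMod D S) : val D (n • a) = val D a ^ n := by
  induction n with
  | zero => rw [zero_smul, val_zero, pow_zero]
  | succ n ih => rw [succ_nsmul, val_add, ih, pow_succ]

theorem val_neg {S : Finset ℕ} (a : UnitMod D S) : val D (-a) = (val D a)⁻¹ := by
  have h := val_add D a (-a)
  rw [add_neg_cancel, val_zero] at h
  exact eq_inv_of_mul_eq_one_right h.symm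

theorem val_zsmul {S : Finset ℕ} (n : ℤ) (a : UnitMod D S) : val D (n • a) = val D a ^ n := by
  obtain ⟨m, rfl | rfl⟩ := n.eq_nat_or_neg
  · rw [natCast_zsmul, val_nsmul, zpow_natCast]
  · rw [neg_smul, natCast_zsmul, val_neg, val_nsmul, zpow_neg, zpow_natCast]

theorem val_sum {S : Finset ℕ} {ι : Type} (s : Finset ι) (f : ι → UnitMod D S) :
    val D (∑ i ∈ s, f i) = ∏ i ∈ s, val D (f i) := by
  classical
  induction s using Finset.induction_on with
  | empty => rw [Finset.sum_empty, Finset.prod_empty, val_zero]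
  | insert i s his ih => rw [Finset.sum_insert his, Finset.prod_insert his, val_add, ih]

theorem val_injective {S : Finset ℕ} : Function.Injective (val D (S := S)) := fun _ _ h =>
  Additive.toMul.injective (Subtype.ext (Units.ext h))

/-- An element of the units outside `S`. -/
def mkUnit {S : Finset ℕ} (x : LL) (hx : x ∈ kField D) (hx0 : x ≠ 0)
    (h : ∀ P ∈ Out (kField D) S, ordP (kField D) P x = 0) : UnitMod D S :=
  Additive.ofMul ⟨Units.mk0 x hx0, (mem_kField D).1 hx,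
    (valuation_eq_one_outside_iff (kField D) S hx hx0).2 h⟩

theorem val_mkUnit {S : Finset ℕ} {x : LL} (hx : x ∈ kField D) (hx0 : x ≠ 0)
    (h : ∀ P ∈ Out (kField D) S, ordP (kField D) P x = 0) :
    val D (mkUnit D x hx hx0 h) = x := rfl

theorem ord_val_eq_zero {S : Finset ℕ} (a : UnitMod D S) :
    ∀ P ∈ Out (kField D) S, ordP (kField D) P (val D a) = 0 :=
  (valuation_eq_one_outside_iff (kField D) S (val_mem D a) (val_ne D a)).1 (Additive.toMul a).2.2

theorem exists_unit_of_ord_zero {x : LL} (hx : x ∈ K) (hx0 : x ≠ 0)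
    (h : ∀ P : Ideal (𝓞 K), P.IsPrime → P ≠ ⊥ → ordP K P x = 0) :
    ∃ u : (𝓞 K)ˣ, x = (((u : 𝓞 K) : K) : LL) := by
  classical
  obtain ⟨a, b, ha, hb, rfl⟩ := exists_frac K hx hx0
  have hcount : normalizedFactors (Ideal.span {a}) = normalizedFactors (Ideal.span {b}) := by
    ext P
    by_cases hP : P ∈ normalizedFactors (Ideal.span {a}) ∨ P ∈ normalizedFactors (Ideal.span {b})
    · have hprime : Prime P := hP.elim (prime_of_normalized_factor P) (prime_of_normalized_factor P)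
      have h1 := h P (Ideal.isPrime_of_prime hprime) hprime.ne_zero
      rw [ordP_div K P ha hb] at h1
      exact_mod_cast (sub_eq_zero.1 h1 : (MW.expAt P a : ℤ) = MW.expAt P b)
    · push Not at hP
      rw [Multiset.count_eq_zero.2 hP.1, Multiset.count_eq_zero.2 hP.2]
  have hspan : Ideal.span {b} = Ideal.span {a} :=
    associated_iff_eq.1 ((associated_iff_normalizedFactors_eq_normalizedFactors
      (MW.span_ne_zero hb) (MW.span_ne_zero ha)).2 hcount.symm)
  obtain ⟨u, hu⟩ := Ideal.span_singleton_eq_span_singleton.1 hspan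
  refine ⟨u, ?_⟩
  rw [← hu]
  push_cast
  rw [mul_div_cancel_left₀ _ (coe_int_ne K hb)]

/-- Finite generation of the units outside `S`. -/
theorem fg_unitMod (S : Finset ℕ) : AddGroup.FG (UnitMod D S) := by
  classical
  set K := kField D
  let T : Finset (Ideal (𝓞 K)) :=
    (S.filter Nat.Prime).biUnion fun l => (normalizedFactors (Ideal.span {(l : 𝓞 K)})).toFinset
  let f : UnitMod D S →ₗ[ℤ] (↥T → ℤ) := (AddMonoidHom.mk'
    (fun a (P : ↥T) => ordP K (P : Ideal (𝓞 K)) (val D a)) fun a b => funext fun P => by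
      rw [Pi.add_apply, val_add, ordP_mul K _ (val_mem D a) (val_mem D b) (val_ne D a) (val_ne D b)]
    ).toIntLinearMap
  have hunit : ∀ (u : (𝓞 K)ˣ) (P : Ideal (𝓞 K)), P.IsPrime → P ≠ ⊥ →
      ordP K P (((u : 𝓞 K) : K) : LL) = 0 := fun u P hP hP0 => by
    haveI := hP
    rw [ordP_int K P hP0 u.ne_zero, (MW.expAt_eq_zero_iff hP0 u.ne_zero).2 fun h =>
      hP.ne_top (P.eq_top_of_isUnit_mem h u.isUnit)]
    rfl
  let g : Additive (𝓞 K)ˣ →ₗ[ℤ] UnitMod D S := (AddMonoidHom.mk'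
    (fun u => mkUnit D ((((Additive.toMul u : (𝓞 K)ˣ) : 𝓞 K) : K) : LL)
      ((((Additive.toMul u : (𝓞 K)ˣ) : 𝓞 K) : K)).2 (coe_int_ne K (Units.ne_zero _))
      fun P hP => hunit _ P hP.1 hP.2.1) fun u v => val_injective D (by
        simp only [val_add, val_mkUnit, toMul_add, Units.val_mul]
        push_cast
        rfl)).toIntLinearMap
  have hker : LinearMap.ker f ≤ LinearMap.range g := fun a ha => by
    have hall : ∀ P : Ideal (𝓞 K), P.IsPrime → P ≠ ⊥ → ordP K P (val D a) = 0 := fun P hP hP0 => by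
      by_cases hout : P ∈ Out K S
      · exact ord_val_eq_zero D a P hout
      have h1 : ∃ l ∈ S, l.Prime ∧ (l : 𝓞 K) ∈ P := by
        by_contra hn
        push Not at hn
        exact hout ⟨hP, hP0, fun l hl hlp => hn l hl hlp⟩
      obtain ⟨l, hl, hlp, hlP⟩ := h1
      have hPT : P ∈ T := Finset.mem_biUnion.2 ⟨l, Finset.mem_filter.2 ⟨hl, hlp⟩,
        Multiset.mem_toFinset.2 ((mem_normalizedFactors_iff
          (MW.span_ne_zero (Nat.cast_ne_zero.2 hlp.ne_zero))).2 ⟨Ideal.prime_of_isPrime hP0 hP,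
            Ideal.dvd_span_singleton.2 hlP⟩)⟩
      exact congrFun (LinearMap.mem_ker.1 ha) ⟨P, hPT⟩
    obtain ⟨u, hu⟩ := exists_unit_of_ord_zero K (val_mem D a) (val_ne D a) hall
    exact ⟨Additive.ofMul u, val_injective D hu.symm⟩
  haveI : Module.Finite ℤ (Additive (𝓞 K)ˣ) :=
    Module.Finite.iff_addGroup_fg.2 (AddGroup.fg_iff_addMonoid_fg.2 inferInstance)
  have hrange : (LinearMap.range g).FG := (Module.Finite.iff_fg).1 inferInstance
  have hkfg : (LinearMap.ker f).FG := by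
    haveI : IsNoetherian ℤ ↥(LinearMap.range g) :=
      isNoetherian_of_fg_of_noetherian _ hrange
    haveI : Module.Finite ℤ ↥((LinearMap.ker f).comap (LinearMap.range g).subtype) := inferInstance
    have h := Submodule.FG.map (LinearMap.range g).subtype
      (Module.Finite.iff_fg.1 (inferInstance :
        Module.Finite ℤ ↥((LinearMap.ker f).comap (LinearMap.range g).subtype)))
    rwa [Submodule.map_comap_subtype, inf_eq_right.2 hker] at h
  refine Module.Finite.iff_addGroup_fg.1 ⟨Submodule.fg_of_fg_map_of_fg_inf_ker f ?_ ?_⟩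
  · exact IsNoetherian.noetherian _
  · rwa [top_inf_eq]

/-- Elements which are almost `p`-th powers. -/
theorem exists_split {S : Finset ℕ}
    (hcl : ∀ P ∈ Out (kField D) S, ∃ z : LL, z ∈ kField D ∧ z ≠ 0 ∧ ordP (kField D) P z = 1 ∧
      ∀ Q ∈ Out (kField D) S, Q ≠ P → ordP (kField D) Q z = 0)
    {α : LL} (hα0 : α ≠ 0) (hα : IsFixed D α)
    (hord : ∀ l : ℕ, l.Prime → l ∉ S → ∀ V : ValuationSubring LL, V.LiesOverPrime l →
      ∃ m : ℤ, V.valuation α = V.valuation ((l : LL) ^ ((p : ℤ) * m))) :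
    ∃ (u : UnitMod D S) (y : LL), IsFixed D y ∧ y ≠ 0 ∧ α = val D u * y ^ p := by
  classical
  set K := kField D
  have hαK : α ∈ K := (mem_kField D).2 hα
  have hdvd : ∀ P ∈ Out K S, (p : ℤ) ∣ ordP K P α := fun P hP => by
    obtain ⟨l, V, hl, hV, rfl, hlP⟩ := exists_place_under K hP.1 hP.2.1
    obtain ⟨m, hm⟩ := hord l hl (fun h => hP.2.2 l h hl hlP) V hV
    have hl0 : (l : LL) ≠ 0 := Nat.cast_ne_zero.2 hl.ne_zero
    have hlK : (l : LL) ∈ K := natCast_mem K l
    have hw : α / (l : LL) ^ ((p : ℤ) * m) ∈ K := div_mem hαK (zpow_mem hlK _)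
    have hw0 : α / (l : LL) ^ ((p : ℤ) * m) ≠ 0 := div_ne_zero hα0 (zpow_ne_zero _ hl0)
    have h1 : V.valuation (α / (l : LL) ^ ((p : ℤ) * m)) = 1 := by
      rw [map_div₀, hm, div_self ((Valuation.ne_zero_iff _).2 (zpow_ne_zero _ hl0))]
    rw [valuation_eq_one_iff_ordP K hl hV hw hw0, div_eq_mul_inv,
      ordP_mul K _ hαK (inv_mem (zpow_mem hlK _)) hα0 (inv_ne_zero (zpow_ne_zero _ hl0)),
      ordP_inv K _ (zpow_mem hlK _) (zpow_ne_zero _ hl0), ordP_zpow K _ hlK hl0] at h1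
    exact ⟨m * ordP K (primeUnder K V) (l : LL), by linarith⟩
  choose z hzK hz0 hz1 hz using hcl
  set B := (finite_ordP K hαK hα0).toFinset.filter (· ∈ Out K S)
  let e : Ideal (𝓞 K) → LL := fun P => if h : P ∈ Out K S then z P h ^ (ordP K P α / p) else 1
  have he : ∀ P ∈ B, e P ∈ K ∧ e P ≠ 0 := fun P hP => by
    simp only [e, dif_pos (Finset.mem_filter.1 hP).2]
    exact ⟨zpow_mem (hzK _ _) _, zpow_ne_zero _ (hz0 _ _)⟩
  set y := ∏ P ∈ B, e P
  have hyK : y ∈ K := prod_mem fun P hP => (he P hP).1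
  have hy0 : y ≠ 0 := Finset.prod_ne_zero_iff.2 fun P hP => (he P hP).2
  have hord' : ∀ Q ∈ Out K S, ordP K Q (α / y ^ p) = 0 := fun Q hQ => by
    rw [div_eq_mul_inv, ordP_mul K _ hαK (inv_mem (pow_mem hyK _)) hα0
      (inv_ne_zero (pow_ne_zero _ hy0)), ordP_inv K _ (pow_mem hyK _) (pow_ne_zero _ hy0),
      ← zpow_natCast y p, ordP_zpow K _ hyK hy0, ordP_prod K Q B e he]
    have hterm : ∀ P ∈ B, ordP K Q (e P) = if P = Q then ordP K Q α / p else 0 := fun P hP => by
      have hPO := (Finset.mem_filter.1 hP).2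
      simp only [e, dif_pos hPO, ordP_zpow K _ (hzK _ _) (hz0 _ _)]
      split_ifs with h
      · subst h; rw [hz1, mul_one]
      · rw [hz P hPO Q hQ (Ne.symm h), mul_zero]
    rw [Finset.sum_congr rfl hterm, Finset.sum_ite_eq']
    split_ifs with h
    · rw [Int.mul_ediv_cancel' (hdvd Q hQ), add_neg_cancel]
    · have h0 : ordP K Q α = 0 := by_contra fun hne => h (Finset.mem_filter.2
        ⟨(finite_ordP K hαK hα0).mem_toFinset.2 ⟨hQ.1, hQ.2.1, hne⟩, hQ⟩)
      rw [h0, mul_zero, neg_zero, add_zero]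
  refine ⟨mkUnit D (α / y ^ p) (div_mem hαK (pow_mem hyK _)) (div_ne_zero hα0 (pow_ne_zero _ hy0))
    hord', y, (mem_kField D).1 hyK, hy0, ?_⟩
  rw [val_mkUnit, div_mul_cancel₀ _ (pow_ne_zero _ hy0)]

end FLTAgent.Lowering.P1.UnitBound
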