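import Fermat.Agent.Lowering.P1.UnitBound.Arith.Units

/-!
# The equivariant form of the unit theorem
-/

set_option autoImplicit false
set_option linter.style.haveILetI false
set_option linter.unusedSectionVars false
set_option maxHeartbeats 1000000

noncomputable section

open scoped Pointwise NumberField
open NumberField

namespace FLTAgent.Lowering.P1.UnitBound

open FLTAgent.Lowering.P1.Brauer

local notation "LL" => AlgebraicClosure ℚ
local notation "GG" => (AlgebraicClosure ℚ ≃ₐ[ℚ] AlgebraicClosure ℚ)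

variable {p : ℕ} [Fact p.Prime] (D : Datum p)

local instance (priority := 900) numberFieldKD : NumberField (kField D) := ⟨⟩

/-- The order of an element of the units outside `S` at a prime. -/
def ordHom {S : Finset ℕ} (P : Ideal (𝓞 (kField D))) : UnitMod D S →+ ℤ :=
  AddMonoidHom.mk' (fun a => ordP (kField D) P (val D a)) fun a b => by
    rw [val_add, ordP_mul (kField D) P (val_mem D a) (val_mem D b) (val_ne D a) (val_ne D b)]

theorem ordHom_eq_zero_of_torsion {S : Finset ℕ} (P : Ideal (𝓞 (kField D))) {a : UnitMod D S}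
    (h : IsOfFinAddOrder a) : ordHom D P a = 0 := by
  obtain ⟨n, hn, h⟩ := isOfFinAddOrder_iff_nsmul_eq_zero.1 h
  have h1 : n • ordHom D P a = 0 := by rw [← map_nsmul, h, map_zero]
  exact (smul_eq_zero.1 h1).resolve_left hn.ne'

theorem ordHom_actU {S : Finset ℕ} {l : ℕ} (hl : l.Prime) {W : ValuationSubring LL}
    (hW : W.LiesOverPrime l) (g : GL (Fin 2) (ZMod p)) (a : UnitMod D S) :
    ordHom D (primeUnder (kField D) W) (actU D S g a) =
      ordHom D (primeUnder (kField D) ((lift D g)⁻¹ • W)) a := by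
  have h := ordP_smul (kField D) (γ := lift D g) (fun x hx => map_mem_kField D _ hx) hl
    (Places.liesOverPrime_smul W (lift D g)⁻¹ hW) (val_mem D a) (val_ne D a)
    (fun x hx => map_mem_kField D _ hx)
  rw [smul_inv_smul] at h
  show ordP _ _ (val D (actU D S g a)) = ordP _ _ (val D a)
  rw [← h]
  conv_lhs => rw [← rb_lift D g, val_actU]

/-- A rational number which is a unit everywhere is a sign. -/
theorem rat_unit_sq {x : LL} (hx0 : x ≠ 0) (hfix : ∀ σ : GG, σ x = x)
    (h : ∀ (l : ℕ) (V : ValuationSubring LL), l.Prime → V.LiesOverPrime l → V.valuation x = 1) :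
    x * x = 1 := by
  haveI : Algebra.IsAlgebraic ℚ LL := AlgebraicClosure.isAlgebraic ℚ
  have hx : x ∈ (⊥ : IntermediateField ℚ LL) :=
    mem_of_galOf_fixed fun σ _ => hfix σ
  obtain ⟨r, rfl⟩ := IntermediateField.mem_bot.1 hx
  have hr : r ≠ 0 := fun e => hx0 (by rw [e, map_zero])
  have key : ∀ m : ℕ, m ∣ r.num.natAbs ∨ m ∣ r.den → ¬ m.Prime := by
    intro m hm hmp
    obtain ⟨V, hV⟩ := Frobenius.exists_liesOverPrime m hmp
    have h1 := h m V hmp hV
    rw [eq_ratCast, Rat.cast_def, map_div₀,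
      div_eq_one_iff_eq ((Valuation.ne_zero_iff _).2 (Nat.cast_ne_zero.2 r.den_ne_zero))] at h1
    have hnum : V.valuation (r.num : LL) = V.valuation ((r.num.natAbs : ℕ) : LL) := by
      obtain ⟨k, hk | hk⟩ := r.num.eq_nat_or_neg <;> rw [hk] <;>
        simp [Valuation.map_neg]
    have hlt : ∀ n : ℕ, m ∣ n → V.valuation (n : LL) < 1 := fun n ⟨c, hc⟩ => by
      rw [hc, Nat.cast_mul, map_mul]
      exact (mul_le_of_le_one_right' ((V.valuation_le_one_iff _).2
        (natCast_mem V.toSubring c))).trans_lt (V.mem_nonunits_iff.1 hV)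
    rw [hnum] at h1
    rcases hm with hm | hm
    · have hd : ¬ m ∣ r.den := fun hd =>
        hmp.ne_one (Nat.eq_one_of_dvd_coprimes r.reduced hm hd)
      exact (hlt _ hm).ne (h1.trans (valuation_natCast_eq_one hmp hV hd))
    · have hn : ¬ m ∣ r.num.natAbs := fun hn =>
        hmp.ne_one (Nat.eq_one_of_dvd_coprimes r.reduced hn hm)
      exact (hlt _ hm).ne (h1.symm.trans (valuation_natCast_eq_one hmp hV hn))
  have hn : r.num.natAbs = 1 := Nat.eq_one_iff_not_exists_prime_dvd.2 fun q hq hd =>
    key q (Or.inl hd) hq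
  have hd : r.den = 1 := Nat.eq_one_iff_not_exists_prime_dvd.2 fun q hq hd =>
    key q (Or.inr hd) hq
  have e : r * r = 1 := by
    rw [← Rat.num_div_den r, hd, Nat.cast_one, div_one, ← Int.cast_mul,
      ← Int.natAbs_mul_self, hn]
    norm_num
  rw [← map_mul, e, map_one]

variable {S : Finset ℕ} (V : ℕ → ValuationSubring LL)

/-- Moving a vector fixed by a subgroup along the cosets. -/
theorem actU_out_smul {H : Subgroup (GL (Fin 2) (ZMod p))} {a : UnitMod D S}
    (ha : ∀ h ∈ H, actU D S h a = a) (g : GL (Fin 2) (ZMod p))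
    (q : GL (Fin 2) (ZMod p) ⧸ H) :
    actU D S g (actU D S q.out a) = actU D S (g • q).out a := by
  have hg : g • q = QuotientGroup.mk (g * q.out) := by
    conv_lhs => rw [← q.out_eq']
    rfl
  obtain ⟨⟨h, hh⟩, he⟩ := QuotientGroup.mk_out_eq_mul H (g * q.out)
  rw [hg, he]
  show (actU D S g * actU D S q.out) a = _
  rw [← map_mul, map_mul (actU D S) (g * q.out) h]
  show _ = actU D S (g * q.out) (actU D S h a)
  rw [ha h hh]

theorem exists_dirichletData (hS : ∀ l ∈ S, l.Prime) (hV : ∀ l ∈ S, (V l).LiesOverPrime l) :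
    Nonempty (DirichletData D (cbar D) S V) := by
  classical
  haveI : Fintype (InfPl (cbar D)) := Fintype.ofFinite _
  haveI : ∀ l, Fintype (GL (Fin 2) (ZMod p) ⧸ decImage D (V l)) := fun l => Fintype.ofFinite _
  haveI : ∀ l, Fintype ↥(decImage D (V l)) := fun l => Fintype.ofFinite _
  -- the unit at infinity
  obtain ⟨u, hu0, hufix, huneg⟩ := exists_dominant_unit D S
  have hufix' : ∀ h ∈ Subgroup.zpowers (cbar D), actU D S h u = u := by
    intro h hh
    obtain ⟨n, rfl⟩ := Subgroup.mem_zpowers_iff.1 hh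
    have hsq : (cbar D) ^ (2 : ℤ) = 1 := by rw [zpow_two, cbar_mul_self]
    obtain ⟨m, rfl | rfl⟩ := Int.even_or_odd' n
    · rw [zpow_mul, hsq, one_zpow, map_one]; rfl
    · rw [zpow_add_one, zpow_mul, hsq, one_zpow, one_mul, hufix]
  -- the element at a finite place
  choose a hh hpos haP ha0 using fun l : ↥S =>
    exists_prime_unit D (hS l l.2) l.2 (hV l l.2)
  let b : ↥S → UnitMod D S := fun l => ∑ g : ↥(decImage D (V l)), actU D S g (a l)
  have hbfix : ∀ l : ↥S, ∀ h ∈ decImage D (V l), actU D S h (b l) = b l := fun l h hh' => by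
    simp only [b, map_sum]
    refine Fintype.sum_equiv (Equiv.mulLeft ⟨h, hh'⟩) _ _ fun g => ?_
    show (actU D S h * actU D S g) (a l) = _
    rw [← map_mul]
    rfl
  let vec : Pl D (cbar D) S V → UnitMod D S :=
    Sum.elim (fun q => actU D S q.out u) fun x => actU D S x.2.out (b x.1)
  have hvec : ∀ (g : GL (Fin 2) (ZMod p)) (x : Pl D (cbar D) S V),
      actU D S g (vec x) = vec (g • x) := by
    rintro g (q | ⟨l, q⟩)
    · exact actU_out_smul D hufix' g q
    · exact actU_out_smul D (hbfix l) g q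
  let Φ : (Pl D (cbar D) S V → ℤ) →+ UnitMod D S :=
    AddMonoidHom.mk' (fun f => ∑ x, f x • vec x) fun f f' => by
      simp only [Pi.add_apply, add_zsmul, Finset.sum_add_distrib]
  -- the orders
  let prime : FinPl D S V → Ideal (𝓞 (kField D)) := fun x =>
    primeUnder (kField D) (lift D x.2.out • V x.1)
  have hover : ∀ x : FinPl D S V, (lift D x.2.out • V x.1).LiesOverPrime (x.1 : ℕ) := fun x =>
    Places.liesOverPrime_smul _ _ (hV x.1 x.1.2)
  have hprime_inj : Function.Injective prime := by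
    rintro ⟨l, q⟩ ⟨l', q'⟩ h
    have hl : (l : ℕ) = l' := eq_of_natCast_mem (kField D) (primeUnder_isPrime _ _)
      (hS l l.2) (hS l' l'.2) (natCast_mem_primeUnder _ (hover ⟨l, q⟩))
      (by rw [show primeUnder (kField D) (lift D q.out • V l) = _ from h]
          exact natCast_mem_primeUnder _ (hover ⟨l', q'⟩))
    obtain rfl : l = l' := Subtype.ext hl
    have h1 := quot_eq_of_primeUnder D h
    rw [rb_lift, rb_lift, QuotientGroup.out_eq', QuotientGroup.out_eq'] at h1
    exact congrArg (Sigma.mk l) h1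
  have hsurj : ∀ P : Ideal (𝓞 (kField D)), P.IsPrime → P ≠ ⊥ → P ∈ Out (kField D) S ∨
      ∃ x, prime x = P := by
    intro P hP hP0
    by_cases ho : ∀ l ∈ S, l.Prime → (l : 𝓞 (kField D)) ∉ P
    · exact Or.inl ⟨hP, hP0, ho⟩
    push Not at ho
    obtain ⟨l, hl, hlp, hlP⟩ := ho
    obtain ⟨l', W, hl', hW, rfl, hl'P⟩ := exists_place_under (kField D) hP hP0
    obtain rfl := eq_of_natCast_mem (kField D) hP hlp hl' hlP hl'P
    obtain ⟨γ, rfl⟩ := Places.exists_smul_eq hlp (hV l hl) hW
    refine Or.inr ⟨⟨⟨l, hl⟩, QuotientGroup.mk (D.rb γ)⟩, primeUnder_smul_quot D ?_⟩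
    rw [rb_lift, QuotientGroup.out_eq']
  have hordu : ∀ (P : Ideal (𝓞 (kField D))), P.IsPrime → P ≠ ⊥ → ∀ q : InfPl (cbar D),
      ordHom D P (actU D S q.out u) = 0 := by
    intro P hP hP0 q
    obtain ⟨l, W, hl, hW, rfl, -⟩ := exists_place_under (kField D) hP hP0
    rw [ordHom_actU D hl hW]
    exact hu0 _ inferInstance (primeUnder_ne_bot _ hl (Places.liesOverPrime_smul W _ hW))
  -- the element of a finite place at the prime of another one
  have hordb : ∀ x y : FinPl D S V, ordHom D (prime y) (vec (Sum.inr x)) =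
      if x = y then ((Fintype.card ↥(decImage D (V x.1)) * hh x.1 : ℕ) : ℤ) else 0 := by
    rintro ⟨l, q⟩ y
    show ordHom D _ (actU D S q.out (b l)) = _
    simp only [b, map_sum]
    have hterm : ∀ g : ↥(decImage D (V l)), ordHom D (prime y) (actU D S q.out (actU D S g (a l)))
        = if (⟨l, q⟩ : FinPl D S V) = y then (hh l : ℤ) else 0 := by
      intro g
      show ordHom D _ ((actU D S q.out * actU D S (g : GL (Fin 2) (ZMod p))) (a l)) = _
      rw [← map_mul, ordHom_actU D (hS _ y.1.2) (hover y)]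
      have hlie := Places.liesOverPrime_smul _ (lift D (q.out * g))⁻¹ (hover y)
      have hiff : primeUnder (kField D) ((lift D (q.out * g))⁻¹ • lift D y.2.out • V y.1) =
          primeUnder (kField D) (V l) ↔ (⟨l, q⟩ : FinPl D S V) = y := by
        have hgq : primeUnder (kField D) (lift D (q.out * g) • V l) = prime ⟨l, q⟩ :=
          primeUnder_smul_quot D (by
            rw [rb_lift, rb_lift]
            exact QuotientGroup.eq.2 (by simp))
        rw [← hprime_inj.eq_iff, ← hgq]
        constructor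
        · intro h
          have h2 := primeUnder_smul_eq (kField D) (γ := lift D (q.out * g))
            (fun x hx => map_mem_kField D _ hx) h
          rw [smul_inv_smul] at h2
          exact h2.symm
        · intro h
          have h2 := primeUnder_smul_eq (kField D) (γ := (lift D (q.out * g))⁻¹)
            (fun x hx => map_mem_kField D _ hx) h
          rw [inv_smul_smul] at h2
          exact h2.symm
      split_ifs with hxy
      · rw [hiff.2 hxy]
        exact haP l
      · exact ha0 l _ inferInstance (primeUnder_ne_bot _ (hS _ y.1.2) hlie)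
          fun e => hxy (hiff.1 e)
    rw [Finset.sum_congr rfl fun g _ => hterm g, Finset.sum_const, Finset.card_univ]
    split_ifs <;> simp
  have hordΦ : ∀ (f : Pl D (cbar D) S V → ℤ) (y : FinPl D S V), ordHom D (prime y) (Φ f) =
      f (Sum.inr y) * (Fintype.card ↥(decImage D (V y.1)) * hh y.1 : ℕ) := by
    intro f y
    show ordHom D _ (∑ x, f x • vec x) = _
    rw [map_sum, Fintype.sum_sum_type]
    simp only [map_zsmul, hordb, smul_eq_mul, mul_ite, mul_zero]
    rw [Finset.sum_ite_eq' Finset.univ y, if_pos (Finset.mem_univ y)]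
    have hzero : ∀ q : InfPl (cbar D), ordHom D (prime y) (vec (Sum.inl q)) = 0 := fun q =>
      hordu _ (primeUnder_isPrime _ _) (primeUnder_ne_bot _ (hS _ y.1.2) (hover y)) q
    simp only [hzero, mul_zero, Finset.sum_const_zero, zero_add]
  -- the logarithms
  let M : InfPl (cbar D) → UnitMod D S →+ ℝ := fun q => lgHom D q.out⁻¹
  have hMneg : ∀ q q' : InfPl (cbar D), q ≠ q' → M q' (vec (Sum.inl q)) < 0 := by
    intro q q' hne
    show lg D q'.out⁻¹ (actU D S q.out u) < 0
    rw [lg_actU]
    refine huneg _ fun h => hne ?_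
    rw [← q.out_eq', ← q'.out_eq']
    exact (QuotientGroup.eq.2 h).symm
  -- the sum of the units at infinity
  obtain ⟨R, hR⟩ : ∃ R, R = ∑ q : InfPl (cbar D), vec (Sum.inl q) := ⟨_, rfl⟩
  have hRfix : ∀ g : GL (Fin 2) (ZMod p), actU D S g R = R := fun g => by
    rw [hR, map_sum]
    exact Fintype.sum_equiv (MulAction.toPerm g) _ _ fun q => hvec g (Sum.inl q)
  have hRtor : R + R = 0 := by
    refine val_injective D ?_
    rw [val_add, val_zero]
    refine rat_unit_sq (val_ne D R) (fun σ => ?_) fun l W hl hW => ?_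
    · rw [← val_actU, hRfix]
    · refine (valuation_eq_one_iff_ordP (kField D) hl hW (val_mem D R) (val_ne D R)).2 ?_
      show ordHom D _ R = 0
      rw [hR, map_sum]
      exact Finset.sum_eq_zero fun q _ =>
        hordu _ inferInstance (primeUnder_ne_bot _ hl hW) q
  have hRfin : IsOfFinAddOrder R :=
    isOfFinAddOrder_iff_nsmul_eq_zero.2 ⟨2, two_pos, by rw [two_nsmul, hRtor]⟩
  have hrow : ∀ q' : InfPl (cbar D), ∑ q, M q' (vec (Sum.inl q)) = 0 := fun q' => by
    rw [← map_sum, ← hR]
    exact lg_eq_zero_of_torsion D _ hRfin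
  have hmax : ∀ c : InfPl (cbar D) → ℤ, IsOfFinAddOrder (∑ q, c q • vec (Sum.inl q)) →
      ∀ q q', c q = c q' := by
    intro c hc
    obtain ⟨m, -, hm⟩ := Finset.exists_max_image Finset.univ c
      ⟨QuotientGroup.mk 1, Finset.mem_univ _⟩
    suffices h : ∀ q, c q = c m from fun q q' => (h q).trans (h q').symm
    intro q
    by_contra hne
    have h0 : M m (∑ q, c q • vec (Sum.inl q)) = 0 := lg_eq_zero_of_torsion D _ hc
    simp only [map_sum, map_zsmul, zsmul_eq_mul] at h0
    have h1 : ∑ q, ((c q : ℝ) - c m) * M m (vec (Sum.inl q)) = 0 := by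
      simp only [sub_mul, Finset.sum_sub_distrib, ← Finset.mul_sum, hrow, mul_zero, h0, sub_zero]
    have hle : ∀ r ∈ Finset.univ, 0 ≤ ((c r : ℝ) - c m) * M m (vec (Sum.inl r)) := by
      intro r _
      rcases eq_or_ne r m with rfl | hr
      · simp
      · exact mul_nonneg_of_nonpos_of_nonpos
          (sub_nonpos.2 (Int.cast_le.2 (hm r (Finset.mem_univ r)))) (hMneg r m hr).le
    have h2 := (Finset.sum_eq_zero_iff_of_nonneg hle).1 h1 q (Finset.mem_univ q)
    rcases mul_eq_zero.1 h2 with h | h
    · exact hne (by exact_mod_cast sub_eq_zero.1 h)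
    · exact (hMneg q m fun e => hne (by rw [e])).ne h
  have hsplit : ∀ f : Pl D (cbar D) S V → ℤ, (∀ y, f (Sum.inr y) = 0) →
      Φ f = ∑ q, f (Sum.inl q) • vec (Sum.inl q) := fun f hf => by
    show ∑ x, f x • vec x = _
    rw [Fintype.sum_sum_type]
    simp [hf]
  refine ⟨{
    Φ := Φ
    equivariant := fun g f => ?_
    torsion_iff := fun f => ?_
    exists_nsmul := fun y => ?_ }⟩
  · show ∑ x, f (g⁻¹ • x) • vec x = actU D S g (∑ x, f x • vec x)
    rw [map_sum]
    simp only [map_zsmul, hvec]
    exact Fintype.sum_equiv (MulAction.toPerm g⁻¹) _ _ fun x => by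
      simp [MulAction.toPerm_apply]
  · constructor
    · intro hf
      have hfin : ∀ y, f (Sum.inr y) = 0 := fun y => by
        have h := ordHom_eq_zero_of_torsion D (prime y) hf
        rw [hordΦ] at h
        refine (mul_eq_zero.1 h).resolve_right ?_
        exact_mod_cast (Nat.mul_pos Fintype.card_pos (hpos y.1)).ne'
      have hc := hmax (fun q => f (Sum.inl q)) (hsplit f hfin ▸ hf)
      refine ⟨f (Sum.inl (QuotientGroup.mk 1)), funext ?_⟩
      rintro (q | y)
      · exact hc q _
      · exact hfin y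
    · rintro ⟨k, rfl⟩
      rw [hsplit _ fun y => rfl]
      simp only [Sum.elim_inl]
      show IsOfFinAddOrder (∑ x, zsmulAddGroupHom k (vec (Sum.inl x)))
      rw [← map_sum (zsmulAddGroupHom k : UnitMod D S →+ UnitMod D S), ← hR]
      exact hRfin.zsmul
  · -- kill the orders
    let d : FinPl D S V → ℕ := fun x => Fintype.card ↥(decImage D (V x.1)) * hh x.1
    have hdpos : ∀ x, 0 < d x := fun x => Nat.mul_pos Fintype.card_pos (hpos x.1)
    obtain ⟨N, hN, hN0⟩ : ∃ N, N = ∏ x, d x ∧ 0 < N :=
      ⟨_, rfl, Finset.prod_pos fun x _ => hdpos x⟩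
    let f₀ : Pl D (cbar D) S V → ℤ := Sum.elim (fun _ => 0)
      fun x => ordHom D (prime x) y * ((N / d x : ℕ) : ℤ)
    have hzero : ∀ P : Ideal (𝓞 (kField D)), P.IsPrime → P ≠ ⊥ →
        ordHom D P (N • y - Φ f₀) = 0 := by
      intro P hP hP0
      rcases hsurj P hP hP0 with ho | ⟨x, rfl⟩
      · exact ord_val_eq_zero D _ P ho
      rw [map_sub, map_nsmul, hordΦ]
      show _ - ordHom D (prime x) y * ((N / d x : ℕ) : ℤ) * ((d x : ℕ) : ℤ) = 0
      rw [mul_assoc, ← Nat.cast_mul, Nat.div_mul_cancel (hN ▸ Finset.dvd_prod_of_mem d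
        (Finset.mem_univ x)), nsmul_eq_mul]
      ring
    obtain ⟨z, hz⟩ := exists_ofUnit D _ hzero
    -- the units at infinity have full rank
    obtain ⟨q₀⟩ : Nonempty (InfPl (cbar D)) := ⟨QuotientGroup.mk 1⟩
    choose w hw using fun q : InfPl (cbar D) => exists_ofUnit D (S := S)
      (vec (Sum.inl q)) fun P hP hP0 => hordu P hP hP0 q
    let v : InfPl (cbar D) → Additive (𝓞 (kField D))ˣ := fun q => if q = q₀ then z else w q
    have hdep : ¬ LinearIndependent ℤ v := fun h => by
      haveI : Module.Finite ℤ (Additive (𝓞 (kField D))ˣ) :=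
        Module.Finite.iff_addGroup_fg.2 (AddGroup.fg_iff_addMonoid_fg.2 inferInstance)
      have h1 := h.fintype_card_le_finrank
      rw [Units.finrank_eq, Units.rank] at h1
      have h2 := card_infinitePlace_le D
      have h3 : 0 < Fintype.card (InfinitePlace (kField D)) := Fintype.card_pos
      omega
    obtain ⟨c, hc, i, hi⟩ := Fintype.not_linearIndependent_iff.1 hdep
    have himg : ∀ q, ofUnit D S (v q) =
        if q = q₀ then N • y - Φ f₀ else vec (Sum.inl q) := fun q => by
      simp only [v]; split_ifs <;> simp [hz, hw]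
    have hc' : c q₀ • (N • y - Φ f₀) +
        ∑ q, (if q = q₀ then 0 else c q) • vec (Sum.inl q) = 0 := by
      have h := congrArg (ofUnit D S) hc
      simp only [map_sum, map_zsmul, map_zero, himg] at h
      rw [← h, ← Finset.add_sum_erase Finset.univ _ (Finset.mem_univ q₀), if_pos rfl,
        ← Finset.add_sum_erase Finset.univ
          (fun q => c q • if q = q₀ then N • y - Φ f₀ else vec (Sum.inl q)) (Finset.mem_univ q₀)]
      simp only [if_pos, zero_smul, zero_add]
      congr 1
      refine Finset.sum_congr rfl fun q hq => ?_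
      rw [if_neg (Finset.ne_of_mem_erase hq), if_neg (Finset.ne_of_mem_erase hq)]
    have hc0 : c q₀ ≠ 0 := by
      intro h0
      rw [h0, zero_smul, zero_add] at hc'
      have heq := hmax _ (hc' ▸ IsOfFinAddOrder.zero)
      have h4 := heq i q₀
      rw [if_pos rfl] at h4
      rcases eq_or_ne i q₀ with rfl | hiq
      · exact hi h0
      · rw [if_neg hiq] at h4
        exact hi h4
    let f₁ : Pl D (cbar D) S V → ℤ :=
      Sum.elim (fun q => if q = q₀ then 0 else c q) fun _ => 0
    have hf₁ : Φ f₁ = ∑ q, (if q = q₀ then 0 else c q) • vec (Sum.inl q) :=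
      hsplit f₁ fun _ => rfl
    refine ⟨(c q₀).natAbs * N, Nat.mul_ne_zero (Int.natAbs_ne_zero.2 hc0) hN0.ne', ?_⟩
    have hmem : c q₀ • (N • y) ∈ Φ.range := by
      have e : c q₀ • (N • y) = Φ (c q₀ • f₀ - f₁) := by
        rw [map_sub, map_zsmul, hf₁, ← sub_eq_zero]
        rw [← hc', zsmul_sub]
        abel
      exact e ▸ ⟨_, rfl⟩
    rw [mul_nsmul', ← natCast_zsmul _ (c q₀).natAbs, ← Int.sign_mul_self_eq_natAbs, mul_zsmul]
    exact AddSubgroup.zsmul_mem _ hmem _

end FLTAgent.Lowering.P1.UnitBound
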