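import Fermat.Agent.Lowering.P1.UnitBound.Arith.Units

/-!
# A norm which is a unit outside `S` is the norm of a unit outside `S`
-/

set_option autoImplicit false
set_option linter.style.haveILetI false
set_option linter.unusedSectionVars false
set_option maxHeartbeats 1000000

noncomputable section

open scoped Pointwise NumberField
open NumberField

namespace FLTAgent.Lowering.P1.UnitBound

open FLTAgent.Lowering.P1.Brauer

local notation "LL" => AlgebraicClosure ℚ
local notation "GG" => (AlgebraicClosure ℚ ≃ₐ[ℚ] AlgebraicClosure ℚ)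

variable {p : ℕ} [Fact p.Prime] (D : Datum p)

local instance (priority := 900) numberFieldKN : NumberField (kField D) := ⟨⟩

/-- The product of the conjugates under the powers of an automorphism. -/
def powProd (p : ℕ) (γ : GG) (x : LL) : LL := ∏ i ∈ Finset.range p, (γ ^ i) x

theorem powProd_mul (γ : GG) (x y : LL) :
    powProd p γ (x * y) = powProd p γ x * powProd p γ y := by
  simp only [powProd, map_mul, Finset.prod_mul_distrib]

theorem powProd_zpow (γ : GG) (x : LL) (k : ℤ) : powProd p γ (x ^ k) = powProd p γ x ^ k := by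
  simp only [powProd, map_zpow₀, Finset.prod_zpow]

theorem powProd_prod (γ : GG) {ι : Type} (s : Finset ι) (f : ι → LL) :
    powProd p γ (∏ j ∈ s, f j) = ∏ j ∈ s, powProd p γ (f j) := by
  simp only [powProd, map_prod]
  exact Finset.prod_comm

theorem powProd_apply {γ : GG} (hγ : D.rb γ ^ p = 1) {x : LL} (hx : x ∈ kField D) (hx0 : x ≠ 0) :
    powProd p γ (γ x) = powProd p γ x := by
  have h1 : (γ ^ p) x = x := apply_eq_of_rb_one D (by rw [map_pow, hγ]) hx
  have e1 := Finset.prod_range_succ (fun i => (γ ^ i) x) p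
  have e2 := Finset.prod_range_succ' (fun i => (γ ^ i) x) p
  rw [e2, pow_zero, h1, show (1 : GG) x = x from rfl] at e1
  have e3 := mul_right_cancel₀ hx0 e1
  refine Eq.trans (Finset.prod_congr rfl fun i _ => ?_) e3
  rw [pow_succ, AlgEquiv.mul_apply]

theorem powProd_apply_pow {γ : GG} (hγ : D.rb γ ^ p = 1) {x : LL} (hx : x ∈ kField D)
    (hx0 : x ≠ 0) (j : ℕ) : powProd p γ ((γ ^ j) x) = powProd p γ x := by
  induction j with
  | zero => rfl
  | succ j ih =>
    rw [pow_succ', AlgEquiv.mul_apply, powProd_apply D hγ (map_mem_kField D _ hx)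
      ((map_ne_zero _).2 hx0), ih]

/-- The correction of a solution of a norm equation. -/
theorem exists_norm_unit {S : Finset ℕ}
    (hcl : ∀ P ∈ Out (kField D) S, ∃ z : LL, z ∈ kField D ∧ z ≠ 0 ∧ ordP (kField D) P z = 1 ∧
      ∀ Q ∈ Out (kField D) S, Q ≠ P → ordP (kField D) Q z = 0)
    {γ : GG} (hγ : D.rb γ ^ p = 1) (b : UnitMod D S) {y : LL} (hy : y ∈ kField D) (hy0 : y ≠ 0)
    (hN : powProd p γ y = val D b) :
    ∃ a : UnitMod D S, powProd p γ (val D a) = val D b := by
  classical
  have hp := (Fact.out : p.Prime)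
  let X := {P // P ∈ Out (kField D) S}
  choose z hzK hz0 hz1 hz using hcl
  choose l W hl hW hWP hlP using fun P : X =>
    exists_place_under (kField D) P.2.1 P.2.2.1
  have hlS : ∀ P : X, l P ∉ S := fun P h => P.2.2.2 _ h (hl P) (hlP P)
  let τ : X → X := fun P => ⟨primeUnder (kField D) (γ • W P),
    out_of_notMem (kField D) (hl P) (Places.liesOverPrime_smul _ γ (hW P)) (hlS P)⟩
  have hiter : ∀ (i : ℕ) (P : X), ((τ^[i] P : X) : Ideal (𝓞 (kField D))) =
      primeUnder (kField D) (γ ^ i • W P) := by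
    intro i
    induction i with
    | zero => intro P; rw [Function.iterate_zero_apply, pow_zero, one_smul, hWP]
    | succ i ih =>
      intro P
      rw [Function.iterate_succ_apply', pow_succ', mul_smul]
      exact primeUnder_smul_eq (kField D) (fun x hx => map_mem_kField D _ hx)
        ((hWP _).trans (ih P))
  have hper : ∀ P : X, τ^[p] P = P := fun P => Subtype.ext (by
    rw [hiter, primeUnder_smul_ker D (by rw [map_pow, hγ]), hWP])
  have hper' : ∀ (k : ℕ) (P : X), τ^[p * k] P = P := fun k P => by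
    rw [Function.iterate_mul]
    exact Function.iterate_fixed (hper P) k
  have hback : ∀ (i : ℕ) (P : X), τ^[i] (τ^[(p - 1) * i] P) = P := fun i P => by
    rw [← Function.iterate_add_apply, add_comm, ← Nat.succ_mul, Nat.succ_eq_add_one,
      Nat.sub_add_cancel hp.one_le, hper']
  have hback' : ∀ (i : ℕ) (P : X), τ^[(p - 1) * i] (τ^[i] P) = P := fun i P => by
    rw [← Function.iterate_add_apply, ← Nat.succ_mul, Nat.succ_eq_add_one,
      Nat.sub_add_cancel hp.one_le, hper']
  have hord : ∀ (i : ℕ) (P : X) (x : LL), x ∈ kField D → x ≠ 0 →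
      ordP (kField D) (τ^[i] P : X) ((γ ^ i) x) = ordP (kField D) (P : X) x := by
    intro i P x hx hx0
    rw [hiter, ← hWP P]
    exact ordP_smul (kField D) (fun x hx => map_mem_kField D _ hx) (hl P) (hW P) hx hx0
      fun x hx => map_mem_kField D _ hx
  have hord' : ∀ (i : ℕ) (P : X) (x : LL), x ∈ kField D → x ≠ 0 →
      ordP (kField D) (P : X) ((γ ^ i) x) = ordP (kField D) (τ^[(p - 1) * i] P : X) x :=
    fun i P x hx hx0 => by
      conv_lhs => rw [← hback i P]
      exact hord i _ x hx hx0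
  let f : X → ℤ := fun P => ordP (kField D) (P : X) y
  have hsum : ∀ P : X, ∑ i ∈ Finset.range p, f (τ^[(p - 1) * i] P) = 0 := fun P => by
    have h := ord_val_eq_zero D b (P : Ideal (𝓞 (kField D))) P.2
    rw [← hN, powProd, ordP_prod (kField D) _ _ _ fun i _ =>
      ⟨map_mem_kField D _ hy, (map_ne_zero _).2 hy0⟩] at h
    rw [← h]
    exact Finset.sum_congr rfl fun i _ => (hord' i P y hy hy0).symm
  -- orbits
  let key : X → Set X := fun P => {Q | ∃ i, τ^[i] P = Q}
  have hkey : ∀ (n : ℕ) (P : X), key (τ^[n] P) = key P := by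
    intro n P
    ext Q
    constructor
    · rintro ⟨i, rfl⟩
      exact ⟨i + n, Function.iterate_add_apply _ _ _ _⟩
    · rintro ⟨i, rfl⟩
      exact ⟨i + (p - 1) * n, by rw [Function.iterate_add_apply, hback']⟩
  have hne : ∀ P : X, (key P).Nonempty := fun P => ⟨P, 0, rfl⟩
  let rep : X → X := fun P => (hne P).choose
  have hrep : ∀ P Q : X, key P = key Q → rep P = rep Q := fun P Q h => by
    simp only [rep]
    congr 1
  have hexj : ∀ P : X, ∃ j, τ^[j] (rep P) = P := fun P => by
    obtain ⟨i, hi⟩ := (hne P).choose_spec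
    exact ⟨(p - 1) * i, by rw [show rep P = τ^[i] P from hi.symm, hback']⟩
  choose j hj using hexj
  let z' : X → LL := fun P => (γ ^ j P) (z _ (rep P).2)
  have hz'K : ∀ P, z' P ∈ kField D := fun P => map_mem_kField D _ (hzK _ _)
  have hz'0 : ∀ P, z' P ≠ 0 := fun P => (map_ne_zero _).2 (hz0 _ _)
  have hz'ord : ∀ P Q : X, ordP (kField D) (Q : X) (z' P) = if P = Q then 1 else 0 := by
    intro P Q
    rw [show z' P = (γ ^ j P) (z _ (rep P).2) from rfl, hord' _ _ _ (hzK _ _) (hz0 _ _)]
    split_ifs with h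
    · subst h
      have e : τ^[(p - 1) * j P] P = rep P := by
        have h' := hback' (j P) (rep P)
        rwa [hj P] at h' 
      rw [e]
      exact hz1 _ (rep P).2
    · refine hz _ (rep P).2 _ (τ^[(p - 1) * j P] Q).2 fun e => h ?_
      rw [← hj P, ← hback (j P) Q, Subtype.ext e]
  -- the support
  let B₀ : Finset X := (Set.Finite.preimage Subtype.val_injective.injOn
    (finite_ordP (kField D) hy hy0)).toFinset
  let B : Finset X := B₀.biUnion fun P => (Finset.range p).image fun i => τ^[i] P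
  have hB : ∀ P : X, f P ≠ 0 → P ∈ B := fun P h => Finset.mem_biUnion.2
    ⟨P, (Set.Finite.mem_toFinset _).2 ⟨P.2.1, P.2.2.1, h⟩,
      Finset.mem_image.2 ⟨0, Finset.mem_range.2 hp.pos, rfl⟩⟩
  have hBτ : ∀ (n : ℕ) (P : X), P ∈ B → τ^[n] P ∈ B := by
    intro n P hP
    obtain ⟨Q, hQ, hPQ⟩ := Finset.mem_biUnion.1 hP
    obtain ⟨i, -, rfl⟩ := Finset.mem_image.1 hPQ
    refine Finset.mem_biUnion.2 ⟨Q, hQ, Finset.mem_image.2
      ⟨(n + i) % p, Finset.mem_range.2 (Nat.mod_lt _ hp.pos), ?_⟩⟩
    rw [← Function.iterate_add_apply]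
    conv_rhs => rw [← Nat.mod_add_div (n + i) p, Function.iterate_add_apply, hper']
  have hfib : ∀ k : Set X, ∑ P ∈ B.filter (fun P => key P = k), f P = 0 := by
    intro k
    have hperm : ∀ i, ∑ P ∈ B.filter (fun P => key P = k), f (τ^[(p - 1) * i] P) =
        ∑ P ∈ B.filter (fun P => key P = k), f P := by
      intro i
      refine Finset.sum_nbij' (fun P => τ^[(p - 1) * i] P) (fun P => τ^[i] P) (fun P hP => ?_)
        (fun P hP => ?_) (fun P _ => hback i P) (fun P _ => hback' i P) fun P _ => rfl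
      all_goals
        obtain ⟨h1, h2⟩ := Finset.mem_filter.1 hP
        exact Finset.mem_filter.2 ⟨hBτ _ _ h1, (hkey _ _).trans h2⟩
    have h1 : (p : ℤ) * ∑ P ∈ B.filter (fun P => key P = k), f P = 0 := by
      calc (p : ℤ) * ∑ P ∈ B.filter (fun P => key P = k), f P
          = ∑ i ∈ Finset.range p, ∑ P ∈ B.filter (fun P => key P = k),
              f (τ^[(p - 1) * i] P) := by
            rw [Finset.sum_congr rfl fun i _ => hperm i, Finset.sum_const, Finset.card_range,
              nsmul_eq_mul]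
        _ = 0 := by
            rw [Finset.sum_comm]
            exact Finset.sum_eq_zero fun P _ => hsum P
    exact (mul_eq_zero.1 h1).resolve_left (Int.natCast_ne_zero.2 hp.ne_zero)
  let c : LL := ∏ P ∈ B, z' P ^ f P
  have hcK : c ∈ kField D := prod_mem fun P _ => zpow_mem (hz'K P) _
  have hc0 : c ≠ 0 := Finset.prod_ne_zero_iff.2 fun P _ => zpow_ne_zero _ (hz'0 P)
  have hcN : powProd p γ c = 1 := by
    have hconst : ∀ P, powProd p γ (z' P) = powProd p γ (z _ (rep P).2) := fun P =>
      powProd_apply_pow D hγ (hzK _ _) (hz0 _ _) _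
    simp only [c, powProd_prod, powProd_zpow, hconst]
    rw [← Finset.prod_fiberwise_of_maps_to (g := key) (t := B.image key)
      fun P hP => Finset.mem_image_of_mem key hP]
    refine Finset.prod_eq_one fun k hk => ?_
    obtain ⟨P₀, -, rfl⟩ := Finset.mem_image.1 hk
    have he : ∀ P ∈ B.filter (fun P => key P = key P₀),
        powProd p γ (z _ (rep P).2) ^ f P = powProd p γ (z _ (rep P₀).2) ^ f P := fun P hP => by
      have e := hrep P P₀ (Finset.mem_filter.1 hP).2
      congr 1
      congr 1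
      simp only [e]
    rw [Finset.prod_congr rfl he]
    generalize hgen : B.filter (fun P => key P = key P₀) = F
    have hF : ∑ P ∈ F, f P = 0 := hgen ▸ hfib (key P₀)
    have hv : powProd p γ (z _ (rep P₀).2) ≠ 0 :=
      Finset.prod_ne_zero_iff.2 fun i _ => (map_ne_zero _).2 (hz0 _ _)
    rw [← zpow_zero (powProd p γ (z _ (rep P₀).2)), ← hF]
    clear hgen hF he
    induction F using Finset.induction_on with
    | empty => simp
    | insert a F ha ih => rw [Finset.prod_insert ha, Finset.sum_insert ha, zpow_add₀ hv, ih]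
  have hout : ∀ Q ∈ Out (kField D) S, ordP (kField D) Q (y / c) = 0 := fun Q hQ => by
    rw [div_eq_mul_inv, ordP_mul (kField D) Q hy (inv_mem hcK) hy0 (inv_ne_zero hc0),
      ordP_inv (kField D) Q hcK hc0, ordP_prod (kField D) Q B _ fun P _ =>
        ⟨zpow_mem (hz'K P) _, zpow_ne_zero _ (hz'0 P)⟩]
    have hterm : ∀ P ∈ B, ordP (kField D) Q (z' P ^ f P) =
        if P = ⟨Q, hQ⟩ then f ⟨Q, hQ⟩ else 0 := fun P _ => by
      rw [ordP_zpow (kField D) Q (hz'K P) (hz'0 P), hz'ord P ⟨Q, hQ⟩]
      split_ifs with h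
      · rw [mul_one, h]
      · rw [mul_zero]
    rw [Finset.sum_congr rfl hterm, Finset.sum_ite_eq']
    split_ifs with h
    · exact add_neg_cancel _
    · rw [neg_zero, add_zero]
      by_contra h0
      exact h (hB ⟨Q, hQ⟩ h0)
  refine ⟨mkUnit D (y / c) (div_mem hy hcK) (div_ne_zero hy0 hc0) hout, ?_⟩
  have h := powProd_mul (p := p) γ (y / c) c
  rw [div_mul_cancel₀ _ hc0, hcN, mul_one, hN] at h
  rw [val_mkUnit]
  exact h.symm

end FLTAgent.Lowering.P1.UnitBound
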