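import Fermat.Agent.Lowering.P1.Brauer.Global
import Fermat.Agent.MW.WeakSquares
import Fermat.Agent.Lowering.P1.Brauer.Reciprocity

/-!
# Primes of a number field inside `ℚ̄` and the places above them
-/

set_option autoImplicit false
set_option linter.style.haveILetI false
set_option linter.unusedSectionVars false

noncomputable section

open scoped Pointwise NumberField
open NumberField

namespace FLTAgent.Lowering.P1.UnitBound

open FLTAgent.Lowering.P1.Brauer

local notation "LL" => AlgebraicClosure ℚ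
local notation "GG" => (AlgebraicClosure ℚ ≃ₐ[ℚ] AlgebraicClosure ℚ)
local notation "ZB" => integralClosure ℤ (AlgebraicClosure ℚ)

variable (K : IntermediateField ℚ (AlgebraicClosure ℚ)) [FiniteDimensional ℚ K]

local instance (priority := 900) numberFieldK : NumberField K := ⟨⟩

/-- The integers of `K` inside the algebraic integers. -/
def intMap : 𝓞 K →+* ZB :=
  ((algebraMap K LL).comp (algebraMap (𝓞 K) K)).codRestrict (ZB).toSubring fun c => c.2.algebraMap

/-- The prime of `K` under a place. -/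
def primeUnder (V : ValuationSubring LL) : Ideal (𝓞 K) := (Frobenius.centre V).comap (intMap K)

instance primeUnder_isPrime (V : ValuationSubring LL) : (primeUnder K V).IsPrime :=
  Ideal.IsPrime.comap _

theorem mem_primeUnder {V : ValuationSubring LL} {c : 𝓞 K} :
    c ∈ primeUnder K V ↔ V.valuation ((c : K) : LL) < 1 := by
  rw [primeUnder, Ideal.mem_comap, Frobenius.mem_centre_iff, ValuationSubring.mem_nonunits_iff]
  rfl

theorem valuation_le_one_int (V : ValuationSubring LL) (c : 𝓞 K) :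
    V.valuation ((c : K) : LL) ≤ 1 :=
  (V.valuation_le_one_iff _).2 (Frobenius.integralClosure_le V (intMap K c))

theorem valuation_eq_one_int {V : ValuationSubring LL} {c : 𝓞 K} (h : c ∉ primeUnder K V) :
    V.valuation ((c : K) : LL) = 1 :=
  le_antisymm (valuation_le_one_int K V c) (not_lt.1 fun h' => h ((mem_primeUnder K).2 h'))

variable {l : ℕ} {V : ValuationSubring (AlgebraicClosure ℚ)}

theorem natCast_mem_primeUnder (hV : V.LiesOverPrime l) : (l : 𝓞 K) ∈ primeUnder K V :=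
  (mem_primeUnder K).2 (by simpa using V.mem_nonunits_iff.1 hV)

theorem primeUnder_ne_bot (hl : l.Prime) (hV : V.LiesOverPrime l) : primeUnder K V ≠ ⊥ := fun h => by
  have := natCast_mem_primeUnder K hV
  rw [h, Ideal.mem_bot, Nat.cast_eq_zero] at this
  exact hl.ne_zero this

/-- The primes of `K` not over a finite set of primes. -/
def Out (S : Finset ℕ) : Set (Ideal (𝓞 K)) :=
  {P | P.IsPrime ∧ P ≠ ⊥ ∧ ∀ l ∈ S, l.Prime → (l : 𝓞 K) ∉ P}

theorem exists_prime_mem {P : Ideal (𝓞 K)} (hP : P.IsPrime) (hP0 : P ≠ ⊥) :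
    ∃ l : ℕ, l.Prime ∧ (l : 𝓞 K) ∈ P := by
  suffices key : ∀ n : ℕ, n ≠ 0 → (n : 𝓞 K) ∈ P → ∃ l : ℕ, l.Prime ∧ (l : 𝓞 K) ∈ P from
    key _ (fun h => hP0 (Ideal.absNorm_eq_zero_iff.1 h)) (Ideal.absNorm_mem P)
  intro n
  induction n using Nat.strong_induction_on with
  | _ n ih =>
    intro hn hmem
    rcases eq_or_ne n 1 with rfl | h1
    · exact absurd ((Ideal.eq_top_iff_one P).2 (by simpa using hmem)) hP.ne_top
    obtain ⟨l, hl, t, rfl⟩ := Nat.exists_prime_and_dvd h1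
    rw [Nat.cast_mul] at hmem
    rcases hP.mem_or_mem hmem with h | h
    · exact ⟨l, hl, h⟩
    · have ht : t ≠ 0 := fun h0 => hn (by rw [h0, mul_zero])
      exact ih t (lt_mul_left (Nat.pos_of_ne_zero ht) hl.one_lt) ht h

/-- Every prime of `K` is under a place. -/
theorem exists_place_under {P : Ideal (𝓞 K)} (hP : P.IsPrime) (hP0 : P ≠ ⊥) :
    ∃ (l : ℕ) (V : ValuationSubring LL), l.Prime ∧ V.LiesOverPrime l ∧ primeUnder K V = P ∧
      (l : 𝓞 K) ∈ P := by
  obtain ⟨A, h1, h2⟩ := MW.exists_place_of_prime P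
  obtain ⟨l, hl, hlP⟩ := exists_prime_mem K hP hP0
  refine ⟨l, A, hl, A.mem_nonunits_iff.2 (by simpa using h2 _ hlP), ?_, hlP⟩
  ext c
  rw [mem_primeUnder]
  exact ⟨fun h => by_contra fun hc => h.ne (h1 c hc), h2 c⟩

theorem eq_of_natCast_mem {P : Ideal (𝓞 K)} (hP : P.IsPrime) {l' : ℕ} (hl : l.Prime)
    (hl' : l'.Prime) (h : (l : 𝓞 K) ∈ P) (h' : (l' : 𝓞 K) ∈ P) : l = l' := by
  by_contra hne
  obtain ⟨a, b, hab⟩ := Int.isCoprime_iff_gcd_eq_one.2
    (show Int.gcd (l : ℤ) l' = 1 from (Nat.coprime_primes hl hl').2 hne)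
  have e : (a : 𝓞 K) * (l : 𝓞 K) + (b : 𝓞 K) * (l' : 𝓞 K) = 1 := by exact_mod_cast hab
  exact hP.ne_top ((Ideal.eq_top_iff_one P).2 (e ▸ P.add_mem (P.mul_mem_left _ h) (P.mul_mem_left _ h')))

theorem valuation_eq_of_expAt_eq (hl : l.Prime) (hV : V.LiesOverPrime l) {a b : 𝓞 K} (ha : a ≠ 0)
    (hb : b ≠ 0) (h : MW.expAt (primeUnder K V) a = MW.expAt (primeUnder K V) b) :
    V.valuation ((a : K) : LL) = V.valuation ((b : K) : LL) := by
  set P := primeUnder K V
  have hP := primeUnder_ne_bot K hl hV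
  set n := MW.expAt P a
  obtain ⟨I, hI⟩ : P ^ n ∣ Ideal.span {a} := (MW.pow_dvd_iff_le_expAt hP ha n).2 le_rfl
  have hnot : ¬ I ≤ P := fun hle => by
    have h1 : P ^ (n + 1) ∣ Ideal.span {a} := by
      rw [hI, pow_succ]; exact mul_dvd_mul_left _ (Ideal.dvd_iff_le.2 hle)
    exact Nat.not_succ_le_self n ((MW.pow_dvd_iff_le_expAt hP ha _).1 h1)
  obtain ⟨d, hdI, hdP⟩ := SetLike.not_le_iff_exists.1 hnot
  have hbP : b ∈ P ^ n := by
    rw [← Ideal.span_singleton_le_iff_mem, ← Ideal.dvd_iff_le, MW.pow_dvd_iff_le_expAt hP hb]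
    exact h.le
  have hmem := Ideal.mul_mem_mul hbP hdI
  rw [← hI, Ideal.mem_span_singleton] at hmem
  obtain ⟨c, hc⟩ := hmem
  have hd0 : d ≠ 0 := fun e => hdP (e ▸ P.zero_mem)
  have hc0 : c ≠ 0 := fun e => mul_ne_zero hb hd0 (by rw [hc, e, mul_zero])
  have e := congrArg (MW.expAt P) hc
  rw [MW.expAt_mul P hb hd0, MW.expAt_mul P ha hc0, (MW.expAt_eq_zero_iff hP hd0).2 hdP,
    add_zero, ← h] at e
  have hcP : c ∉ P := (MW.expAt_eq_zero_iff hP hc0).1 (Nat.left_eq_add.1 e)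
  have e' := congrArg (fun x : 𝓞 K => V.valuation ((x : K) : LL)) hc
  simp only [map_mul, MulMemClass.coe_mul] at e'
  rw [valuation_eq_one_int K hdP, valuation_eq_one_int K hcP, mul_one, mul_one] at e'
  exact e'.symm

theorem exists_frac {x : LL} (hx : x ∈ K) (hx0 : x ≠ 0) :
    ∃ a b : 𝓞 K, a ≠ 0 ∧ b ≠ 0 ∧ x = ((a : K) : LL) / ((b : K) : LL) := by
  obtain ⟨a, b, hb, hab⟩ := IsFractionRing.div_surjective (A := 𝓞 K) (⟨x, hx⟩ : K)
  have hb0 : b ≠ 0 := nonZeroDivisors.ne_zero hb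
  have e : x = ((a : K) : LL) / ((b : K) : LL) := by
    have := congrArg Subtype.val hab
    simpa using this.symm
  exact ⟨a, b, fun h => hx0 (by rw [e, h]; simp), hb0, e⟩

/-- The order of an element at a prime. -/
def ordP (P : Ideal (𝓞 K)) (x : LL) : ℤ :=
  letI := Classical.propDecidable (x ∈ K ∧ x ≠ 0)
  if h : x ∈ K ∧ x ≠ 0 then
    (MW.expAt P (exists_frac K h.1 h.2).choose : ℤ) -
      MW.expAt P (exists_frac K h.1 h.2).choose_spec.choose
  else 0

theorem coe_int_ne {c : 𝓞 K} (hc : c ≠ 0) : ((c : K) : LL) ≠ 0 := fun h =>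
  hc (RingOfIntegers.ext (Subtype.ext h))

theorem ordP_div (P : Ideal (𝓞 K)) {a b : 𝓞 K} (ha : a ≠ 0) (hb : b ≠ 0) :
    ordP K P (((a : K) : LL) / ((b : K) : LL)) = (MW.expAt P a : ℤ) - MW.expAt P b := by
  set x := ((a : K) : LL) / ((b : K) : LL)
  have hx : x ∈ K ∧ x ≠ 0 :=
    ⟨div_mem (a : K).2 (b : K).2, div_ne_zero (coe_int_ne K ha) (coe_int_ne K hb)⟩
  rw [ordP, dif_pos hx]
  set a' := (exists_frac K hx.1 hx.2).choose
  set b' := (exists_frac K hx.1 hx.2).choose_spec.choose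
  obtain ⟨ha', hb', he⟩ := (exists_frac K hx.1 hx.2).choose_spec.choose_spec
  have e : a * b' = a' * b := by
    refine RingOfIntegers.ext (Subtype.ext ?_)
    simp only [map_mul, MulMemClass.coe_mul]
    exact (div_eq_div_iff (coe_int_ne K hb) (coe_int_ne K hb')).1 he
  have e' := congrArg (MW.expAt P) e
  rw [MW.expAt_mul P ha hb', MW.expAt_mul P ha' hb] at e'
  have e'' : (MW.expAt P a : ℤ) + MW.expAt P b' = MW.expAt P a' + MW.expAt P b := by exact_mod_cast e'
  linarith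

theorem ordP_int (P : Ideal (𝓞 K)) [P.IsPrime] (hP : P ≠ ⊥) {a : 𝓞 K} (ha : a ≠ 0) :
    ordP K P ((a : K) : LL) = MW.expAt P a := by
  have h := ordP_div K P ha (one_ne_zero (α := 𝓞 K))
  rw [(MW.expAt_eq_zero_iff hP one_ne_zero).2
    ((Ideal.ne_top_iff_one P).1 (Ideal.IsPrime.ne_top inferInstance))] at h
  simpa using h

theorem ordP_mul (P : Ideal (𝓞 K)) {x y : LL} (hx : x ∈ K) (hy : y ∈ K) (hx0 : x ≠ 0)
    (hy0 : y ≠ 0) : ordP K P (x * y) = ordP K P x + ordP K P y := by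
  obtain ⟨a, b, ha, hb, rfl⟩ := exists_frac K hx hx0
  obtain ⟨c, d, hc, hd, rfl⟩ := exists_frac K hy hy0
  rw [ordP_div K P ha hb, ordP_div K P hc hd,
    show ((a : K) : LL) / ((b : K) : LL) * (((c : K) : LL) / ((d : K) : LL)) =
      (((a * c : 𝓞 K) : K) : LL) / (((b * d : 𝓞 K) : K) : LL) by push_cast; rw [div_mul_div_comm],
    ordP_div K P (mul_ne_zero ha hc) (mul_ne_zero hb hd), MW.expAt_mul P ha hc,
    MW.expAt_mul P hb hd]
  push_cast
  ring

theorem ordP_one (P : Ideal (𝓞 K)) : ordP K P 1 = 0 := by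
  have h := ordP_mul K P (one_mem K) (one_mem K) one_ne_zero one_ne_zero
  rwa [one_mul, left_eq_add] at h

theorem ordP_inv (P : Ideal (𝓞 K)) {x : LL} (hx : x ∈ K) (hx0 : x ≠ 0) :
    ordP K P x⁻¹ = -ordP K P x := by
  have h := ordP_mul K P hx (inv_mem hx) hx0 (inv_ne_zero hx0)
  rw [mul_inv_cancel₀ hx0, ordP_one] at h
  linarith

theorem ordP_zpow (P : Ideal (𝓞 K)) {x : LL} (hx : x ∈ K) (hx0 : x ≠ 0) (k : ℤ) :
    ordP K P (x ^ k) = k * ordP K P x := by
  have hnat : ∀ n : ℕ, ordP K P (x ^ n) = n * ordP K P x := fun n => by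
    induction n with
    | zero => simp [ordP_one]
    | succ n ih =>
      rw [pow_succ, ordP_mul K P (pow_mem hx n) hx (pow_ne_zero _ hx0) hx0, ih]
      push_cast
      ring
  obtain ⟨n, rfl | rfl⟩ := k.eq_nat_or_neg
  · rw [zpow_natCast, hnat]
  · rw [zpow_neg, zpow_natCast, ordP_inv K P (pow_mem hx n) (pow_ne_zero _ hx0), hnat]
    ring

theorem ordP_prod (P : Ideal (𝓞 K)) {ι : Type} (s : Finset ι) (f : ι → LL)
    (h : ∀ i ∈ s, f i ∈ K ∧ f i ≠ 0) :
    ordP K P (∏ i ∈ s, f i) = ∑ i ∈ s, ordP K P (f i) := by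
  classical
  induction s using Finset.induction_on with
  | empty => simp [ordP_one]
  | insert i s his ih =>
    have hi := h i (Finset.mem_insert_self i s)
    have hs : ∀ j ∈ s, f j ∈ K ∧ f j ≠ 0 := fun j hj => h j (Finset.mem_insert_of_mem hj)
    rw [Finset.prod_insert his, Finset.sum_insert his,
      ordP_mul K P hi.1 (prod_mem fun j hj => (hs j hj).1) hi.2
        (Finset.prod_ne_zero_iff.2 fun j hj => (hs j hj).2), ih hs]

theorem valuation_eq_one_iff_ordP (hl : l.Prime) (hV : V.LiesOverPrime l) {x : LL} (hx : x ∈ K)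
    (hx0 : x ≠ 0) : V.valuation x = 1 ↔ ordP K (primeUnder K V) x = 0 := by
  obtain ⟨a, b, ha, hb, rfl⟩ := exists_frac K hx hx0
  rw [ordP_div K _ ha hb, map_div₀,
    div_eq_one_iff_eq ((Valuation.ne_zero_iff _).2 (coe_int_ne K hb)), sub_eq_zero, Nat.cast_inj]
  exact ⟨fun h => MW.expAt_eq_of_valuation_eq (primeUnder_ne_bot K hl hV)
      (fun c hc => valuation_eq_one_int K hc) (fun c hc => (mem_primeUnder K).1 hc) ha hb h,
    fun h => valuation_eq_of_expAt_eq K hl hV ha hb h⟩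

theorem out_of_notMem {S : Finset ℕ} (hl : l.Prime) (hV : V.LiesOverPrime l) (hlS : l ∉ S) :
    primeUnder K V ∈ Out K S :=
  ⟨inferInstance, primeUnder_ne_bot K hl hV, fun m hm hmp hmem => hlS
    (eq_of_natCast_mem K inferInstance hl hmp (natCast_mem_primeUnder K hV) hmem ▸ hm)⟩

/-- Trivial outside `S`, by orders. -/
theorem valuation_eq_one_outside_iff (S : Finset ℕ) {x : LL} (hx : x ∈ K) (hx0 : x ≠ 0) :
    (∀ l : ℕ, l.Prime → l ∉ S → ∀ V : ValuationSubring LL, V.LiesOverPrime l →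
      V.valuation x = 1) ↔ ∀ P ∈ Out K S, ordP K P x = 0 := by
  refine ⟨fun h P hP => ?_, fun h l hl hlS V hV =>
    (valuation_eq_one_iff_ordP K hl hV hx hx0).2 (h _ (out_of_notMem K hl hV hlS))⟩
  obtain ⟨l, V, hl, hV, rfl, hlP⟩ := exists_place_under K hP.1 hP.2.1
  exact (valuation_eq_one_iff_ordP K hl hV hx hx0).1
    (h l hl (fun hlS => hP.2.2 l hlS hl hlP) V hV)

theorem finite_ordP {x : LL} (hx : x ∈ K) (hx0 : x ≠ 0) :
    {P : Ideal (𝓞 K) | P.IsPrime ∧ P ≠ ⊥ ∧ ordP K P x ≠ 0}.Finite := by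
  classical
  obtain ⟨a, b, ha, hb, rfl⟩ := exists_frac K hx hx0
  refine Set.Finite.subset ((UniqueFactorizationMonoid.normalizedFactors (Ideal.span {a})).toFinset ∪
    (UniqueFactorizationMonoid.normalizedFactors (Ideal.span {b})).toFinset).finite_toSet ?_
  rintro P ⟨-, -, h⟩
  rw [ordP_div K P ha hb] at h
  simp only [Finset.coe_union, Set.mem_union, Finset.mem_coe, Multiset.mem_toFinset]
  by_contra hn
  push Not at hn
  exact h (by rw [MW.expAt, MW.expAt, Multiset.count_eq_zero.2 hn.1, Multiset.count_eq_zero.2 hn.2]; simp)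

theorem exists_ord_one {P : Ideal (𝓞 K)} [P.IsPrime] (hP : P ≠ ⊥) :
    ∃ c : 𝓞 K, c ≠ 0 ∧ ordP K P ((c : K) : LL) = 1 := by
  have hlt := Ideal.pow_right_strictAnti P hP (Ideal.IsPrime.ne_top inferInstance)
    (show 1 < 2 by omega)
  simp only [pow_one] at hlt
  obtain ⟨π, hπP, hπP2⟩ := SetLike.exists_of_lt hlt
  have hπ0 : π ≠ 0 := fun h => hπP2 (h ▸ zero_mem _)
  have ha : 1 ≤ MW.expAt P π := (MW.pow_dvd_iff_le_expAt hP hπ0 1).1 (by
    rw [pow_one, Ideal.dvd_iff_le, Ideal.span_singleton_le_iff_mem]; exact hπP)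
  have hb : ¬ 2 ≤ MW.expAt P π := fun h => hπP2 (by
    have := (MW.pow_dvd_iff_le_expAt hP hπ0 2).2 h
    rwa [Ideal.dvd_iff_le, Ideal.span_singleton_le_iff_mem] at this)
  exact ⟨π, hπ0, by rw [ordP_int K P hP hπ0]; omega⟩

theorem valuation_smul_eq_one (γ : GG) (W : ValuationSubring LL) {x : LL} (hx0 : x ≠ 0) :
    (γ • W).valuation (γ x) = 1 ↔ W.valuation x = 1 := by
  have hmem : ∀ y : LL, γ y ∈ γ • W ↔ y ∈ W := fun y =>
    ValuationSubring.smul_mem_pointwise_smul_iff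
  have key : ∀ (X : ValuationSubring LL) (y : LL), y ≠ 0 →
      (X.valuation y = 1 ↔ y ∈ X ∧ y⁻¹ ∈ X) := fun X y hy => by
    rw [← X.valuation_le_one_iff y, ← X.valuation_le_one_iff y⁻¹, map_inv₀,
      inv_le_one₀ (zero_lt_iff.2 ((Valuation.ne_zero_iff _).2 hy))]
    exact ⟨fun h => ⟨h.le, h.ge⟩, fun h => le_antisymm h.1 h.2⟩
  rw [key _ _ ((map_ne_zero γ).2 hx0), key _ _ hx0, ← map_inv₀, hmem, hmem]

theorem primeUnder_smul_eq {V W : ValuationSubring LL} {γ : GG}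
    (hγ : ∀ x ∈ K, γ⁻¹ x ∈ K) (h : primeUnder K V = primeUnder K W) :
    primeUnder K (γ • V) = primeUnder K (γ • W) := by
  ext c
  have hd : γ⁻¹ ((c : K) : LL) ∈ K := hγ _ (c : K).2
  have hint : IsIntegral ℤ (⟨_, hd⟩ : K) := by
    refine (isIntegral_algebraMap_iff (algebraMap K LL).injective).1 ?_
    exact (intMap K c).2.map ((γ⁻¹ : GG).toAlgHom.restrictScalars ℤ)
  let d : 𝓞 K := ⟨⟨_, hd⟩, hint⟩
  have key : ∀ X : ValuationSubring LL, c ∈ primeUnder K (γ • X) ↔ d ∈ primeUnder K X := fun X => by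
    rw [primeUnder, primeUnder, Ideal.mem_comap, Ideal.mem_comap, Frobenius.mem_centre_iff,
      Frobenius.mem_centre_iff, Places.mem_smul_nonunits_iff]
    rfl
  rw [key V, key W, h]

/-- Transport of orders by automorphisms. -/
theorem ordP_smul {γ : GG} (hγ : ∀ x ∈ K, γ x ∈ K) (hl : l.Prime) (hV : V.LiesOverPrime l)
    {x : LL} (hx : x ∈ K) (hx0 : x ≠ 0) (hγ' : ∀ x ∈ K, γ⁻¹ x ∈ K) :
    ordP K (primeUnder K (γ • V)) (γ x) = ordP K (primeUnder K V) x := by
  have hVl : (γ • V).LiesOverPrime l := Places.liesOverPrime_smul V γ hV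
  haveI := primeUnder_isPrime K V
  haveI := primeUnder_isPrime K (γ • V)
  obtain ⟨c, hc0, hc⟩ := exists_ord_one K (primeUnder_ne_bot K hl hV)
  obtain ⟨d, hd0, hd⟩ := exists_ord_one K (primeUnder_ne_bot K hl hVl)
  -- the order of the image is a fixed multiple of the order
  have key : ∀ (δ : GG) (U : ValuationSubring LL), U.LiesOverPrime l → (∀ x ∈ K, δ x ∈ K) →
      ∀ (e : 𝓞 K), e ≠ 0 → ordP K (primeUnder K U) ((e : K) : LL) = 1 → ∀ z ∈ K, z ≠ 0 →
      ordP K (primeUnder K (δ • U)) (δ z) =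
        ordP K (primeUnder K U) z * ordP K (primeUnder K (δ • U)) (δ ((e : K) : LL)) := by
    intro δ U hU hδ e he0 he z hz hz0
    set k := ordP K (primeUnder K U) z
    have heK : ((e : K) : LL) ∈ K := (e : K).2
    have he' := coe_int_ne K he0
    have hw : z * ((e : K) : LL) ^ (-k) ∈ K := mul_mem hz (zpow_mem heK _)
    have hw0 : z * ((e : K) : LL) ^ (-k) ≠ 0 := mul_ne_zero hz0 (zpow_ne_zero _ he')
    have h1 : ordP K (primeUnder K U) (z * ((e : K) : LL) ^ (-k)) = 0 := by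
      rw [ordP_mul K _ hz (zpow_mem heK _) hz0 (zpow_ne_zero _ he'), ordP_zpow K _ heK he', he]
      ring
    have h2 := (valuation_eq_one_iff_ordP K hl (Places.liesOverPrime_smul U δ hU) (hδ _ hw)
      ((map_ne_zero δ).2 hw0)).1 ((valuation_smul_eq_one δ U hw0).2
        ((valuation_eq_one_iff_ordP K hl hU hw hw0).2 h1))
    rw [map_mul, map_zpow₀, ordP_mul K _ (hδ _ hz) (zpow_mem (hδ _ heK) _) ((map_ne_zero δ).2 hz0)
      (zpow_ne_zero _ ((map_ne_zero δ).2 he')), ordP_zpow K _ (hδ _ heK) ((map_ne_zero δ).2 he')] at h2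
    linarith
  have hk := key γ V hV hγ c hc0 hc x hx hx0
  have hk' := key γ⁻¹ (γ • V) hVl hγ' d hd0 hd (γ ((c : K) : LL)) (hγ _ (c : K).2)
    ((map_ne_zero γ).2 (coe_int_ne K hc0))
  rw [inv_smul_smul] at hk'
  rw [show γ⁻¹ (γ ((c : K) : LL)) = ((c : K) : LL) from γ.symm_apply_apply _, hc] at hk'
  have hpos : 0 ≤ ordP K (primeUnder K (γ • V)) (γ ((c : K) : LL)) := by
    have hint : IsIntegral ℤ (⟨_, hγ _ (c : K).2⟩ : K) := by
      refine (isIntegral_algebraMap_iff (algebraMap K LL).injective).1 ?_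
      exact (intMap K c).2.map ((γ : GG).toAlgHom.restrictScalars ℤ)
    let c' : 𝓞 K := ⟨⟨_, hγ _ (c : K).2⟩, hint⟩
    have hc' : c' ≠ 0 := fun h => (map_ne_zero γ).2 (coe_int_ne K hc0)
      (congrArg (fun e : 𝓞 K => ((e : K) : LL)) h)
    have h : 0 ≤ ordP K (primeUnder K (γ • V)) ((c' : K) : LL) := by
      rw [ordP_int K _ (primeUnder_ne_bot K hl hVl) hc']
      exact Int.natCast_nonneg _
    exact h
  have hone : ordP K (primeUnder K (γ • V)) (γ ((c : K) : LL)) = 1 :=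
    Int.eq_one_of_mul_eq_one_right hpos hk'.symm
  rw [hk, hone, mul_one]

end FLTAgent.Lowering.P1.UnitBound
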