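import Fermat.Agent.Lowering.P1.UnitBound.Arith.Class
import Fermat.Agent.Lowering.P1.Local.Approx
import Fermat.Prelude.Def_GaloisRep_ComplexConjugation

/-!
# A unit with one dominant conjugate, and primes attached to the cosets of decomposition groups
-/

set_option autoImplicit false
set_option linter.style.haveILetI false
set_option linter.unusedSectionVars false
set_option maxHeartbeats 1000000

noncomputable section

open scoped Pointwise NumberField nonZeroDivisors
open NumberField

namespace FLTAgent.Lowering.P1.UnitBound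

open FLTAgent.Lowering.P1.Brauer

local notation "LL" => AlgebraicClosure ℚ
local notation "GG" => (AlgebraicClosure ℚ ≃ₐ[ℚ] AlgebraicClosure ℚ)
local notation "ZB" => integralClosure ℤ (AlgebraicClosure ℚ)

variable {p : ℕ} [Fact p.Prime] (D : Datum p)

local instance (priority := 900) numberFieldKK : NumberField (kField D) := ⟨⟩

/-- The image of complex conjugation. -/
def cbar : GL (Fin 2) (ZMod p) := D.rb complexConjugation

theorem cbar_mul_self : cbar D * cbar D = 1 := by
  rw [cbar, ← map_mul, complexConjugation_mul_self, map_one]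

theorem exists_zeta : ∃ ζ : LL, IsPrimitiveRoot ζ p := by
  haveI : NeZero (p : LL) := ⟨Nat.cast_ne_zero.2 (Fact.out : p.Prime).ne_zero⟩
  exact HasEnoughRootsOfUnity.exists_primitiveRoot LL p

theorem det_cbar : Matrix.det (cbar D : Matrix (Fin 2) (Fin 2) (ZMod p)) = -1 := by
  obtain ⟨ζ, hζ⟩ := exists_zeta (p := p)
  have hp := (Fact.out : p.Prime)
  have h1 : complexConjugation ζ = ζ ^ (p - 1) := complexEmbedding.injective (by
    show complexEmbedding (complexConjugation ζ) = complexEmbedding (ζ ^ (p - 1))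
    rw [complexEmbedding_complexConjugation, map_pow]
    have hn : ‖complexEmbedding ζ‖ = 1 :=
      (hζ.map_of_injective complexEmbedding.injective).norm'_eq_one hp.ne_zero
    have h2 : complexEmbedding ζ ^ (p - 1) * complexEmbedding ζ = 1 := by
      rw [← pow_succ, Nat.sub_add_cancel hp.one_le, ← map_pow, hζ.pow_eq_one, map_one]
    rw [← Complex.inv_eq_conj hn]
    exact (eq_inv_of_mul_eq_one_left h2).symm)
  rw [D.det_cyclo _ _ hζ.pow_eq_one] at h1
  have h2 := hζ.pow_inj (ZMod.val_lt _) (Nat.sub_lt hp.pos one_pos) h1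
  show Matrix.det (D.rb complexConjugation : Matrix (Fin 2) (Fin 2) (ZMod p)) = -1
  rw [← ZMod.natCast_zmod_val (Matrix.det _), h2, Nat.cast_sub hp.one_le, ZMod.natCast_self,
    Nat.cast_one, zero_sub]

/-! ### Normality -/

theorem apply_eq_of_rb_one {σ : GG} (h : D.rb σ = 1) {x : LL} (hx : x ∈ kField D) : σ x = x :=
  (mem_kField D).1 hx σ h

theorem rb_eq_one_of_fix {σ : GG} (h : ∀ x ∈ kField D, σ x = x) : D.rb σ = 1 := by
  have h1 : σ ∈ galOf (kField D) := (IntermediateField.mem_fixingSubgroup_iff _ _).2 h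
  rwa [galOf_kField] at h1

local instance (priority := 900) isAlgebraicLLu : Algebra.IsAlgebraic ℚ LL :=
  AlgebraicClosure.isAlgebraic ℚ

local instance (priority := 900) normalLLu : Normal ℚ LL :=
  normal_iff.2 fun x => ⟨integral_coe x, IsAlgClosed.splits _⟩

instance kField_normal : Normal ℚ (kField D) :=
  IntermediateField.normal_iff_forall_map_le'.2 fun σ => by
    rintro _ ⟨x, hx, rfl⟩
    exact map_mem_kField D σ hx

/-! ### Primes and cosets -/

theorem primeUnder_smul_ker {k : GG} (hk : D.rb k = 1) (V : ValuationSubring LL) :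
    primeUnder (kField D) (k • V) = primeUnder (kField D) V := by
  ext c
  rw [primeUnder, primeUnder, Ideal.mem_comap, Ideal.mem_comap, Frobenius.mem_centre_iff,
    Frobenius.mem_centre_iff, Places.mem_smul_nonunits_iff,
    show k⁻¹ • ((intMap (kField D) c : LL)) = (intMap (kField D) c : LL) from
      apply_eq_of_rb_one D (by rw [map_inv, hk, inv_one]) (c : kField D).2]

theorem primeUnder_smul_congr {σ τ : GG} (h : D.rb σ = D.rb τ) (V : ValuationSubring LL) :
    primeUnder (kField D) (σ • V) = primeUnder (kField D) (τ • V) := by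
  have hk : D.rb (σ * τ⁻¹) = 1 := by rw [map_mul, map_inv, h, mul_inv_cancel]
  rw [← primeUnder_smul_ker D hk (τ • V), smul_smul, inv_mul_cancel_right]

theorem exists_ker_smul {V W : ValuationSubring LL}
    (h : primeUnder (kField D) V = primeUnder (kField D) W) :
    ∃ k : GG, D.rb k = 1 ∧ k • V = W := by
  obtain ⟨k, hk, e⟩ := Loc.exists_smul_eq_of_centre (H := galOf (kField D))
    (IntermediateField.fixingSubgroup_isClosed _) (V := V) (W := W) fun b hb => by
      have hb' : (b : LL) ∈ kField D :=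
        mem_of_galOf_fixed fun σ hσ => congrArg Subtype.val (hb σ hσ)
      have hint : IsIntegral ℤ (⟨_, hb'⟩ : kField D) :=
        (isIntegral_algebraMap_iff (algebraMap (kField D) LL).injective).1 b.2
      have e : b = intMap (kField D) ⟨⟨_, hb'⟩, hint⟩ := Subtype.ext rfl
      rw [e, ← Ideal.mem_comap, ← Ideal.mem_comap]
      exact Iff.of_eq (congrArg (fun P : Ideal (𝓞 (kField D)) =>
        (⟨⟨_, hb'⟩, hint⟩ : 𝓞 (kField D)) ∈ P) h)
  rw [galOf_kField] at hk
  exact ⟨k, hk, e⟩

theorem quot_eq_of_primeUnder {σ τ : GG} {V : ValuationSubring LL}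
    (h : primeUnder (kField D) (σ • V) = primeUnder (kField D) (τ • V)) :
    (QuotientGroup.mk (D.rb σ) : GL (Fin 2) (ZMod p) ⧸ decImage D V) =
      QuotientGroup.mk (D.rb τ) := by
  obtain ⟨k, hk, e⟩ := exists_ker_smul D h
  refine QuotientGroup.eq.2 ⟨σ⁻¹ * k⁻¹ * τ, ?_, by simp [hk]⟩
  show (σ⁻¹ * k⁻¹ * τ) • V = V
  rw [mul_smul, mul_smul, ← e, inv_smul_smul, inv_smul_smul]

theorem primeUnder_smul_quot {σ τ : GG} {V : ValuationSubring LL}
    (h : (QuotientGroup.mk (D.rb σ) : GL (Fin 2) (ZMod p) ⧸ decImage D V) =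
      QuotientGroup.mk (D.rb τ)) :
    primeUnder (kField D) (σ • V) = primeUnder (kField D) (τ • V) := by
  obtain ⟨d, hd, e⟩ := QuotientGroup.eq.1 h
  rw [primeUnder_smul_congr D (σ := τ) (τ := σ * d) (by rw [map_mul, e, mul_inv_cancel_left]),
    mul_smul, show d • V = V from hd]

/-! ### Logarithms -/

/-- The logarithms of the absolute values of the conjugates. -/
def lg {S : Finset ℕ} (g : GL (Fin 2) (ZMod p)) (a : UnitMod D S) : ℝ :=
  Real.log ‖complexEmbedding (lift D g (val D a))‖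

theorem lg_add {S : Finset ℕ} (g : GL (Fin 2) (ZMod p)) (a b : UnitMod D S) :
    lg D g (a + b) = lg D g a + lg D g b := by
  have h : ∀ c : UnitMod D S, ‖complexEmbedding (lift D g (val D c))‖ ≠ 0 := fun c =>
    norm_ne_zero_iff.2 ((map_ne_zero _).2 ((map_ne_zero _).2 (val_ne D c)))
  rw [lg, lg, lg, val_add, map_mul, map_mul, norm_mul, Real.log_mul (h a) (h b)]

/-- The logarithms as a homomorphism. -/
def lgHom {S : Finset ℕ} (g : GL (Fin 2) (ZMod p)) : UnitMod D S →+ ℝ :=
  AddMonoidHom.mk' (lg D g) (lg_add D g)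

theorem lg_actU {S : Finset ℕ} (g h : GL (Fin 2) (ZMod p)) (a : UnitMod D S) :
    lg D g (actU D S h a) = lg D (g * h) a := by
  conv_lhs => rw [← rb_lift D h]
  rw [lg, lg, val_actU, ← AlgEquiv.mul_apply]
  exact congrArg (fun y => Real.log ‖complexEmbedding y‖)
    ((Additive.toMul a).2.1.apply_eq (by rw [map_mul, rb_lift, rb_lift, rb_lift]))

theorem lg_cbar_mul {S : Finset ℕ} (g : GL (Fin 2) (ZMod p)) (a : UnitMod D S) :
    lg D (cbar D * g) a = lg D g a := by
  have h : lift D (cbar D * g) (val D a) = complexConjugation (lift D g (val D a)) := by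
    rw [← AlgEquiv.mul_apply]
    exact (Additive.toMul a).2.1.apply_eq (by rw [map_mul, rb_lift, rb_lift, cbar])
  rw [lg, lg, h, complexEmbedding_complexConjugation, RCLike.norm_conj]

theorem lg_eq_zero_of_torsion {S : Finset ℕ} (g : GL (Fin 2) (ZMod p)) {a : UnitMod D S}
    (h : IsOfFinAddOrder a) : lg D g a = 0 := by
  obtain ⟨n, hn, h⟩ := isOfFinAddOrder_iff_nsmul_eq_zero.1 h
  have h1 : n • lgHom D g a = 0 := by rw [← map_nsmul, h, map_zero]
  exact (smul_eq_zero.1 h1).resolve_left hn.ne'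

/-! ### Global units -/

theorem ordP_unit (u : (𝓞 (kField D))ˣ) {P : Ideal (𝓞 (kField D))} (hP : P.IsPrime)
    (hP0 : P ≠ ⊥) : ordP (kField D) P (((u : 𝓞 (kField D)) : kField D) : LL) = 0 := by
  haveI := hP
  rw [ordP_int (kField D) P hP0 u.ne_zero, (MW.expAt_eq_zero_iff hP0 u.ne_zero).2 fun h =>
    hP.ne_top (P.eq_top_of_isUnit_mem h u.isUnit)]
  rfl

/-- A global unit as an element. -/
def ofUnit (S : Finset ℕ) : Additive (𝓞 (kField D))ˣ →+ UnitMod D S :=
  AddMonoidHom.mk' (fun u => mkUnit D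
    ((((Additive.toMul u : (𝓞 (kField D))ˣ) : 𝓞 (kField D)) : kField D) : LL)
    (((Additive.toMul u : (𝓞 (kField D))ˣ) : 𝓞 (kField D)) : kField D).2
    (coe_int_ne (kField D) (Units.ne_zero _))
    fun P hP => ordP_unit D _ hP.1 hP.2.1) fun u v => val_injective D (by
      simp only [val_add, val_mkUnit, toMul_add, Units.val_mul]
      push_cast
      rfl)

theorem val_ofUnit (S : Finset ℕ) (u : Additive (𝓞 (kField D))ˣ) :
    val D (ofUnit D S u) =
      ((((Additive.toMul u : (𝓞 (kField D))ˣ) : 𝓞 (kField D)) : kField D) : LL) := rfl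

theorem exists_ofUnit {S : Finset ℕ} (a : UnitMod D S)
    (h : ∀ P : Ideal (𝓞 (kField D)), P.IsPrime → P ≠ ⊥ → ordP (kField D) P (val D a) = 0) :
    ∃ u, ofUnit D S u = a := by
  obtain ⟨u, hu⟩ := exists_unit_of_ord_zero (kField D) (val_mem D a) (val_ne D a) h
  exact ⟨Additive.ofMul u, val_injective D hu.symm⟩

/-- The embedding belonging to an element of the image. -/
def emb (g : GL (Fin 2) (ZMod p)) : kField D →+* ℂ :=
  ((complexEmbedding : LL →+* ℂ).comp (lift D g : LL →+* LL)).comp (algebraMap (kField D) LL)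

theorem mk_emb_apply (g : GL (Fin 2) (ZMod p)) (x : kField D) :
    InfinitePlace.mk (emb D g) x = ‖complexEmbedding (lift D g (x : LL))‖ := rfl

theorem mem_zpowers_of_mk_eq {g : GL (Fin 2) (ZMod p)}
    (h : InfinitePlace.mk (emb D g) = InfinitePlace.mk (emb D 1)) :
    g ∈ Subgroup.zpowers (cbar D) := by
  have h1 : ∀ x : LL, x ∈ kField D → lift D 1 x = x := fun x hx =>
    apply_eq_of_rb_one D (rb_lift D 1) hx
  rcases InfinitePlace.mk_eq_iff.1 h with e | e
  · have : g = 1 := by
      rw [← rb_lift D g]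
      refine rb_eq_one_of_fix D fun x hx => ?_
      have e' := RingHom.congr_fun e ⟨x, hx⟩
      exact (complexEmbedding.injective e').trans (h1 x hx)
    rw [this]
    exact one_mem _
  · have : cbar D * g = 1 := by
      rw [cbar, ← rb_lift D g, ← map_mul]
      refine rb_eq_one_of_fix D fun x hx => complexEmbedding.injective ?_
      show complexEmbedding (complexConjugation (lift D g x)) = complexEmbedding x
      rw [complexEmbedding_complexConjugation]
      have e' := RingHom.congr_fun e ⟨x, hx⟩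
      exact e'.trans (congrArg complexEmbedding (h1 x hx))
    rw [eq_inv_of_mul_eq_one_right this]
    exact inv_mem (Subgroup.mem_zpowers _)

theorem cbar_ne_one : cbar D ≠ 1 := fun h => by
  have h1 := det_cbar D
  rw [h, Units.val_one, Matrix.det_one] at h1
  have h2 : ((2 : ℕ) : ZMod p) = 0 := by push_cast; linear_combination h1
  rw [ZMod.natCast_eq_zero_iff] at h2
  have := Nat.le_of_dvd two_pos h2
  linarith [D.p_gt]

/-- A unit outside `S`, everywhere a unit, fixed by complex conjugation, all of whose conjugates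
but one are small. -/
theorem exists_dominant_unit (S : Finset ℕ) : ∃ u : UnitMod D S,
    (∀ P : Ideal (𝓞 (kField D)), P.IsPrime → P ≠ ⊥ → ordP (kField D) P (val D u) = 0) ∧
    actU D S (cbar D) u = u ∧
    ∀ g : GL (Fin 2) (ZMod p), g ∉ Subgroup.zpowers (cbar D) → lg D g u < 0 := by
  obtain ⟨u, hu⟩ := Units.dirichletUnitTheorem.exists_unit (kField D)
    (InfinitePlace.mk (emb D 1))
  obtain ⟨a, ha⟩ : ∃ a : UnitMod D S, a = ofUnit D S (Additive.ofMul u) := ⟨_, rfl⟩
  have hval : val D a = (((u : 𝓞 (kField D)) : kField D) : LL) := by rw [ha]; rfl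
  have hord : ∀ P : Ideal (𝓞 (kField D)), P.IsPrime → P ≠ ⊥ →
      ordP (kField D) P (val D a) = 0 := fun P hP hP0 => by
    rw [hval]; exact ordP_unit D u hP hP0
  have hneg : ∀ g : GL (Fin 2) (ZMod p), g ∉ Subgroup.zpowers (cbar D) → lg D g a < 0 := by
    intro g hg
    have := hu _ fun e => hg (mem_zpowers_of_mk_eq D e)
    rw [mk_emb_apply] at this
    rwa [lg, hval]
  refine ⟨a + actU D S (cbar D) a, fun P hP hP0 => ?_, ?_, fun g hg => ?_⟩
  · rw [val_add, ordP_mul (kField D) P (val_mem D _) (val_mem D _) (val_ne D _) (val_ne D _),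
      hord P hP hP0, zero_add, cbar, val_actU]
    obtain ⟨l, W, hl, hW, hWP, -⟩ := exists_place_under (kField D) hP hP0
    have hW' := Places.liesOverPrime_smul W (complexConjugation⁻¹) hW
    have h1 := (valuation_eq_one_iff_ordP (kField D) hl hW' (val_mem D a) (val_ne D a)).2
      (hord _ inferInstance (primeUnder_ne_bot _ hl hW'))
    have h2 := valuation_apply_eq_one complexConjugation W h1
    rw [← hWP]
    exact (valuation_eq_one_iff_ordP (kField D) hl hW
      (map_mem_kField D _ (val_mem D a)) ((map_ne_zero _).2 (val_ne D a))).1 h2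
  · have h : actU D S (cbar D) (actU D S (cbar D) a) = a := by
      show (actU D S (cbar D) * actU D S (cbar D)) a = a
      rw [← map_mul, cbar_mul_self, map_one]
      rfl
    rw [map_add, h, add_comm]
  · rw [lg_add, lg_actU]
    have h' : g * cbar D ∉ Subgroup.zpowers (cbar D) := fun h =>
      hg ((Subgroup.mul_mem_cancel_right _ (Subgroup.mem_zpowers _)).1 h)
    linarith [hneg g hg, hneg _ h']

/-- Every infinite place belongs to a coset. -/
theorem exists_mk_emb_eq (w : InfinitePlace (kField D)) :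
    ∃ g : GL (Fin 2) (ZMod p), InfinitePlace.mk (emb D g) = w := by
  haveI : IsGalois ℚ (kField D) := {}
  obtain ⟨s, hs⟩ := InfinitePlace.exists_smul_eq_of_comap_eq (k := ℚ)
    (w := InfinitePlace.mk (emb D 1)) (w' := w) (Subsingleton.elim _ _)
  obtain ⟨τ, hτ⟩ := AlgEquiv.restrictNormalHom_surjective LL s.symm
  refine ⟨D.rb τ, InfinitePlace.ext _ _ fun x => ?_⟩
  rw [← hs, InfinitePlace.smul_apply, mk_emb_apply, mk_emb_apply,
    ((mem_kField D).1 x.2).apply_eq (rb_lift D (D.rb τ)),
    apply_eq_of_rb_one D (rb_lift D 1) (s.symm x).2, ← hτ]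
  exact congrArg (fun y => ‖complexEmbedding y‖)
    (AlgEquiv.restrictNormal_commutes τ (kField D) x).symm

theorem card_infinitePlace_le [Fintype (InfPl (cbar D))] :
    Fintype.card (InfinitePlace (kField D)) ≤ Fintype.card (InfPl (cbar D)) := by
  refine Fintype.card_le_of_surjective (fun q => InfinitePlace.mk (emb D q.out⁻¹)) fun w => ?_
  obtain ⟨g, rfl⟩ := exists_mk_emb_eq D w
  refine ⟨QuotientGroup.mk g⁻¹, ?_⟩
  show InfinitePlace.mk (emb D _) = _
  obtain ⟨⟨k, hk⟩, hk'⟩ := QuotientGroup.mk_out_eq_mul (Subgroup.zpowers (cbar D)) g⁻¹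
  rw [hk', mul_inv_rev, inv_inv]
  have hk1 : k⁻¹ ∈ Subgroup.zpowers (cbar D) := inv_mem hk
  refine InfinitePlace.ext _ _ fun x => ?_
  rw [mk_emb_apply, mk_emb_apply]
  obtain ⟨n, hn⟩ := Subgroup.mem_zpowers_iff.1 hk1
  have hsq : (cbar D) ^ (2 : ℤ) = 1 := by rw [zpow_two, cbar_mul_self]
  obtain ⟨m, rfl | rfl⟩ := Int.even_or_odd' n
  · rw [zpow_mul, hsq, one_zpow] at hn
    rw [← hn, one_mul]
  · rw [zpow_add_one, zpow_mul, hsq, one_zpow, one_mul] at hn
    rw [← hn, ((mem_kField D).1 x.2).apply_eq (σ := lift D (cbar D * g))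
      (τ := complexConjugation * lift D g) (by rw [map_mul, rb_lift, rb_lift, cbar]),
      AlgEquiv.mul_apply, complexEmbedding_complexConjugation, RCLike.norm_conj]

/-- An element which is positive at exactly one prime. -/
theorem exists_prime_unit {S : Finset ℕ} {l : ℕ} (hl : l.Prime) (hlS : l ∈ S)
    {V : ValuationSubring LL} (hV : V.LiesOverPrime l) :
    ∃ (a : UnitMod D S) (h : ℕ), 0 < h ∧
      ordP (kField D) (primeUnder (kField D) V) (val D a) = h ∧
      ∀ Q : Ideal (𝓞 (kField D)), Q.IsPrime → Q ≠ ⊥ → Q ≠ primeUnder (kField D) V →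
        ordP (kField D) Q (val D a) = 0 := by
  classical
  obtain ⟨P, hP⟩ : ∃ P, P = primeUnder (kField D) V := ⟨_, rfl⟩
  rw [← hP]
  haveI hPp : P.IsPrime := hP ▸ primeUnder_isPrime _ V
  have hP0 : P ≠ ⊥ := hP ▸ primeUnder_ne_bot _ hl hV
  have hlP : (l : 𝓞 (kField D)) ∈ P := hP ▸ natCast_mem_primeUnder _ hV
  obtain ⟨h, hh, hh0⟩ : ∃ h, h = Fintype.card (ClassGroup (𝓞 (kField D))) ∧ 0 < h :=
    ⟨_, rfl, Fintype.card_pos⟩
  have hP' : P ∈ (Ideal (𝓞 (kField D)))⁰ := mem_nonZeroDivisors_of_ne_zero hP0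
  have hPh : P ^ h ∈ (Ideal (𝓞 (kField D)))⁰ := pow_mem hP' h
  have hmk : ClassGroup.mk0 ⟨P ^ h, hPh⟩ = 1 := by
    rw [show (⟨P ^ h, hPh⟩ : (Ideal (𝓞 (kField D)))⁰) = ⟨P, hP'⟩ ^ h from rfl, map_pow, hh,
      pow_card_eq_one]
  obtain ⟨z, hz⟩ := ((ClassGroup.mk0_eq_one_iff hPh).1 hmk).principal
  have hz' : P ^ h = Ideal.span {z} := hz
  have hz0 : z ≠ 0 := fun e => pow_ne_zero h hP0 (by rw [hz', e]; simp)
  have hexp : ∀ Q : Ideal (𝓞 (kField D)), MW.expAt Q z = if Q = P then h else 0 := fun Q => by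
    rw [MW.expAt, ← hz', UniqueFactorizationMonoid.normalizedFactors_pow,
      UniqueFactorizationMonoid.normalizedFactors_irreducible
        (Ideal.prime_of_isPrime hP0 hPp).irreducible, normalize_eq, Multiset.count_nsmul,
      Multiset.count_singleton]
    split_ifs <;> simp
  have hord : ∀ Q : Ideal (𝓞 (kField D)), Q.IsPrime → Q ≠ ⊥ → Q ≠ P →
      ordP (kField D) Q ((z : kField D) : LL) = 0 := fun Q hQ hQ0 hne => by
    haveI := hQ
    rw [ordP_int _ Q hQ0 hz0, hexp, if_neg hne]
    rfl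
  refine ⟨mkUnit D ((z : kField D) : LL) (z : kField D).2 (coe_int_ne _ hz0) (fun Q hQ =>
    hord Q hQ.1 hQ.2.1 fun e => hQ.2.2 l hlS hl (e ▸ hlP)), h, hh0, ?_, hord⟩
  rw [val_mkUnit, ordP_int _ P hP0 hz0, hexp, if_pos rfl]

end FLTAgent.Lowering.P1.UnitBound
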